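import Fermat.Agent.S27.NonSpecial

/-!
# S27 / alternative core: algebraic toolbox (any algebraically closed `K` of characteristic 0)
WP [C'-alg].  Everything follows from `Val`, `LSpace`, `RR1`, `NonSpecial`.
-/

set_option autoImplicit false
set_option linter.unusedSectionVars false

open AlgebraicCurve WithZero Module

namespace Fermat.Agent.S27.Alt

variable {K F : Type*} [Field K] [Field F] [Algebra K F]

/-! ### linear equivalence -/

theorem LinEq.refl (D : Divisor K F) : LinEq D D := by
  unfold LinEq
  rw [sub_self]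
  exact zero_mem _

theorem LinEq.symm {D E : Divisor K F} (h : LinEq D E) : LinEq E D := by
  unfold LinEq at h ⊢
  rw [← neg_sub]
  exact neg_mem h

theorem LinEq.trans {D E G : Divisor K F} (h : LinEq D E) (h' : LinEq E G) : LinEq D G := by
  unfold LinEq at h h' ⊢
  rw [← sub_add_sub_cancel D E G]
  exact add_mem h h'

theorem LinEq.add {D E D' E' : Divisor K F} (h : LinEq D E) (h' : LinEq D' E') :
    LinEq (D + D') (E + E') := by
  unfold LinEq at h h' ⊢
  rw [add_sub_add_comm]
  exact add_mem h h'

theorem LinEq.sub {D E D' E' : Divisor K F} (h : LinEq D E) (h' : LinEq D' E') :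
    LinEq (D - D') (E - E') := by
  unfold LinEq at h h' ⊢
  rw [sub_sub_sub_comm]
  exact sub_mem h h'

open Classical in
/-- class of a divisor in `Pic0` (junk value `0` if the degree is not `0`). -/
noncomputable def pc (D : Divisor K F) : Pic0 K F :=
  if h : Divisor.degree D = 0 then cls D h else 0

theorem pc_of_degree {D : Divisor K F} (hD : Divisor.degree D = 0) :
    pc D = Pic0.mk ⟨D, hD⟩ := by
  unfold pc
  rw [dif_pos hD]
  rfl

theorem pc_zero : pc (0 : Divisor K F) = 0 := by
  rw [pc_of_degree (map_zero _)]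
  rfl

theorem pc_add {D E : Divisor K F} (hD : Divisor.degree D = 0) (hE : Divisor.degree E = 0) :
    pc (D + E) = pc D + pc E := by
  rw [pc_of_degree hD, pc_of_degree hE, pc_of_degree (by rw [map_add, hD, hE, add_zero])]
  rfl

theorem pc_neg {D : Divisor K F} (hD : Divisor.degree D = 0) : pc (-D) = -pc D := by
  apply eq_neg_of_add_eq_zero_left
  rw [← pc_add (by rw [map_neg, hD, neg_zero]) hD, neg_add_cancel, pc_zero]

theorem pc_eq_iff {D E : Divisor K F} (hD : Divisor.degree D = 0) (hE : Divisor.degree E = 0) :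
    pc D = pc E ↔ LinEq D E := by
  rw [pc_of_degree hD, pc_of_degree hE]
  unfold Pic0.mk LinEq
  rw [QuotientAddGroup.eq, AddSubgroup.mem_addSubgroupOf]
  have : ((-(⟨D, hD⟩ : Divisor.degZero (K := K) (F := F)) + ⟨E, hE⟩ :
      Divisor.degZero (K := K) (F := F)) : Divisor K F) = -(D - E) := by
    show -D + E = -(D - E)
    abel
  rw [this, neg_mem_iff]

theorem pc_surjective (γ : Pic0 K F) : ∃ D : Divisor K F, Divisor.degree D = 0 ∧ pc D = γ := by
  obtain ⟨⟨D, hD⟩, rfl⟩ := Pic0.mk_surjective γ
  exact ⟨D, hD, pc_of_degree hD⟩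

theorem pc_zsmul {D : Divisor K F} (hD : Divisor.degree D = 0) (n : ℤ) :
    pc (n • D) = n • pc D := by
  rw [pc_of_degree hD, pc_of_degree (by rw [map_zsmul, hD, smul_zero])]
  rfl

/-- `Pic0` is generated by differences of places (all places have degree one). -/
theorem closure_pc_single_sub (hdeg : ∀ v : Place K F, v.deg = 1) (H : AddSubgroup (Pic0 K F))
    (h : ∀ v w : Place K F, pc (Finsupp.single v 1 - Finsupp.single w 1) ∈ H) : H = ⊤ := by
  rw [eq_top_iff]
  intro γ _
  obtain ⟨D, hD, rfl⟩ := pc_surjective γ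
  by_cases hne : Nonempty (Place K F)
  · obtain ⟨v₀⟩ := hne
    have hds : ∀ (v : Place K F) (n : ℤ), Divisor.degree (Finsupp.single v n) = n := by
      intro v n
      rw [Divisor.degree_single, hdeg]; simp
    have key : ∀ D : Divisor K F, pc (D - Finsupp.single v₀ (Divisor.degree D)) ∈ H := by
      intro D
      induction D using Finsupp.induction_linear with
      | zero => simp [pc_zero]
      | add D E hD hE =>
        have : D + E - Finsupp.single v₀ (Divisor.degree (D + E)) =
            (D - Finsupp.single v₀ (Divisor.degree D)) +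
              (E - Finsupp.single v₀ (Divisor.degree E)) := by
          rw [map_add, Finsupp.single_add]; abel
        rw [this, pc_add (by rw [map_sub, hds, sub_self]) (by rw [map_sub, hds, sub_self])]
        exact H.add_mem hD hE
      | single v n =>
        have : Finsupp.single v n - Finsupp.single v₀ (Divisor.degree (Finsupp.single v n)) =
            n • (Finsupp.single v (1 : ℤ) - Finsupp.single v₀ (1 : ℤ)) := by
          rw [hds, smul_sub, Finsupp.smul_single, Finsupp.smul_single]
          simp
        rw [this, pc_zsmul (by rw [map_sub, hds, hds, sub_self])]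
        exact H.zsmul_mem (h v v₀) n
    have := key D
    rwa [hD, Finsupp.single_zero, sub_zero] at this
  · have : D = 0 := by
      ext v
      exact absurd ⟨v⟩ hne
    rw [this, pc_zero]
    exact H.zero_mem


variable [IsAlgClosed K] [CharZero K] [IsFF K F]

theorem LinEq.degree_eq {D E : Divisor K F} (h : LinEq D E) :
    Divisor.degree D = Divisor.degree E := by
  obtain ⟨f, hf, hDf⟩ := mem_principal_iff.1 h
  have := degree_divOf (K := K) hf
  rw [← hDf, map_sub] at this
  exact sub_eq_zero.1 this

theorem degree_single (v : Place K F) (n : ℤ) : Divisor.degree (Finsupp.single v n) = n := by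
  rw [Divisor.degree_single, deg_eq_one]
  simp

/-- uniqueness of the effective divisor in a class with `l = 1`. -/
theorem eq_of_linEq_of_finrank_eq_one {D E : Divisor K F} (hD : 0 ≤ D) (hE : 0 ≤ E)
    (h : LinEq E D) (hl : finrank K (riemannRochSpace D) = 1) : E = D := by
  have hL : riemannRochSpace (0 : Divisor K F) = riemannRochSpace D :=
    Submodule.eq_of_le_of_finrank_eq (L_mono hD) (by rw [finrank_L_zero, hl])
  obtain ⟨f, hf, hDf⟩ := mem_principal_iff.1 h
  have hmem : f ∈ riemannRochSpace D := by
    rw [mem_riemannRochSpace_iff]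
    intro v
    right
    have h1 : (E - D) v = v.ord f := by rw [hDf, divOf_apply]
    rw [Finsupp.sub_apply] at h1
    have h2 : 0 ≤ E v := hE v
    omega
  rw [← hL, mem_L_zero_iff] at hmem
  obtain ⟨c, rfl⟩ := hmem
  have hc : c ≠ 0 := by
    rintro rfl
    exact hf (map_zero _)
  have h0 : E - D = 0 := by
    rw [hDf]
    ext v
    rw [divOf_apply, Finsupp.zero_apply, Place.ord, adic_algebraMap v hc]
    simp
  exact sub_eq_zero.1 h0

/-- a divisor above a non special one is non special. -/
theorem finrank_L_of_isNS_le {g : ℕ} (hg : genusFF K F = g) {P : Fin g → Place K F} (hP : IsNS P)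
    {D : Divisor K F} (h : sumDiv P ≤ D) :
    (finrank K (riemannRochSpace D) : ℤ) = Divisor.degree D + 1 - g := by
  have h1 : finrank K (H1 D) = 0 := by
    have := finrank_H1_anti h
    rw [hP.h1_eq] at this
    omega
  have := rr1 D
  rw [h1, hg] at this
  simpa using this

/-- non special reduced divisors avoiding a finite set. -/
theorem exists_isNS {g : ℕ} (hg : genusFF K F = g) (S : Set (Place K F)) (hS : S.Finite) :
    ∃ P : Fin g → Place K F, IsNS P ∧ ∀ j, P j ∉ S := by
  let b := Module.finBasisOfFinrankEq K (WD K F) ((finrank_WD K F).trans hg)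
  obtain ⟨P, hPinj, hPS, hP⟩ := exists_det_ne_zero (⇑b) b.linearIndependent S hS
  choose t ht using fun j => exists_unif (P j)
  exact ⟨P, isNS_of_det hg (⇑b) P hPinj t ht (hP t ht), hPS⟩

/-- **moving lemma**: prescribed orders at finitely many places. -/
theorem exists_ord_eq (S : Finset (Place K F)) (m : Place K F → ℤ) :
    ∃ h : F, h ≠ 0 ∧ ∀ v ∈ S, v.ord h = m v := by
  classical
  have := infinite_places K F
  obtain ⟨v₀, hv₀⟩ := Infinite.exists_notMem_finset S
  obtain ⟨c, hc⟩ := exists_H1_eq_zero K F
  set A₀ : Divisor K F := -∑ v ∈ S, Finsupp.single v (m v) with hA₀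
  set A : Divisor K F := Finsupp.single v₀ (c + 1 - Divisor.degree A₀) + A₀ with hA
  have hdegA : Divisor.degree A = c + 1 := by
    rw [hA, map_add, degree_single]; ring
  have hAv : ∀ v ∈ S, A v = -m v := by
    intro v hv
    have hne : v ≠ v₀ := fun h => hv₀ (h ▸ hv)
    rw [hA, Finsupp.add_apply, Finsupp.single_eq_of_ne hne, zero_add, hA₀, Finsupp.neg_apply,
      Finsupp.finsetSum_apply, Finset.sum_eq_single v]
    · rw [Finsupp.single_eq_same]
    · intro w _ hw
      exact Finsupp.single_eq_of_ne hw.symm
    · intro h; exact absurd hv h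
  have hlt : ∀ v ∈ S, ¬ riemannRochSpace A ≤ riemannRochSpace (A - Finsupp.single v 1) := by
    intro v _ hle
    have h1 := rr1 A
    have h2 := rr1 (A - Finsupp.single v 1)
    rw [hc A (by rw [hdegA]; omega)] at h1
    rw [hc (A - Finsupp.single v 1) (by rw [map_sub, hdegA, degree_single]; omega), map_sub,
      degree_single] at h2
    have h3 : (finrank K (riemannRochSpace A) : ℤ) ≤
        finrank K (riemannRochSpace (A - Finsupp.single v 1)) := by
      exact_mod_cast Submodule.finrank_mono hle
    push_cast at h1 h2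
    omega
  set s : Finset (Subspace K ↥(riemannRochSpace A)) :=
    S.image fun v => (riemannRochSpace (A - Finsupp.single v 1)).comap (riemannRochSpace A).subtype
    with hs
  have htop : ⊤ ∉ s := by
    rw [hs, Finset.mem_image]
    rintro ⟨v, hv, hv'⟩
    exact hlt v hv (Submodule.comap_subtype_eq_top.1 hv')
  have hne := Subspace.biUnion_ne_univ_of_top_notMem htop
  rw [Set.ne_univ_iff_exists_notMem] at hne
  obtain ⟨⟨h, hhA⟩, hh⟩ := hne
  simp only [Set.mem_iUnion, not_exists] at hh
  have hh' : ∀ v ∈ S, h ∉ riemannRochSpace (A - Finsupp.single v 1) := by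
    intro v hv hmem
    exact hh _ (Finset.mem_image_of_mem _ hv) hmem
  by_cases hS : S.Nonempty
  · obtain ⟨w, hw⟩ := hS
    have hh0 : h ≠ 0 := by
      rintro rfl
      exact hh' w hw (zero_mem _)
    refine ⟨h, hh0, fun v hv => ?_⟩
    have h1 : -A v ≤ v.ord h := ((mem_riemannRochSpace_iff.1 hhA) v).resolve_left hh0
    have h2 : ¬ (-A v + 1 ≤ v.ord h) := by
      intro hcon
      apply hh' v hv
      rw [mem_riemannRochSpace_iff]
      intro u
      right
      by_cases hu : u = v
      · subst hu
        rw [Finsupp.sub_apply, Finsupp.single_eq_same]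
        omega
      · rw [Finsupp.sub_apply, Finsupp.single_eq_of_ne hu, sub_zero]
        exact ((mem_riemannRochSpace_iff.1 hhA) u).resolve_left hh0
    rw [hAv v hv] at h1 h2
    omega
  · rw [Finset.not_nonempty_iff_eq_empty] at hS
    subst hS
    exact ⟨1, one_ne_zero, by simp⟩

/-- functions of `L(B)` are regular at the places outside the support of `B`. -/
theorem adic_le_one_of_mem_L {B : Divisor K F} {f : F} (hf : f ∈ riemannRochSpace B)
    {v : Place K F} (hv : B v = 0) : v.adicValuation f ≤ 1 := by
  have := hf v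
  rwa [hv, exp_zero] at this

theorem sumDiv_apply_self {ι : Type*} [Fintype ι] {Q : ι → Place K F}
    (hQ : Function.Injective Q) (i : ι) : sumDiv Q (Q i) = 1 := by
  classical
  rw [NS.sumDiv_apply, Finset.sum_eq_single i]
  · rw [Finsupp.single_eq_same]
  · intro j _ hj
    exact Finsupp.single_eq_of_ne fun h => hj (hQ h).symm
  · intro h; exact absurd (Finset.mem_univ i) h

/-- vanishing conditions at distinct places outside the support. -/
theorem mem_L_sub_sumDiv_iff {ι : Type*} [Fintype ι] {B : Divisor K F} {Q : ι → Place K F}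
    (hQ : Function.Injective Q) (hB : ∀ i, B (Q i) = 0) {f : F} :
    f ∈ riemannRochSpace (B - sumDiv Q) ↔ f ∈ riemannRochSpace B ∧ ∀ i, val (Q i) f = 0 := by
  constructor
  · intro hf
    have hfB : f ∈ riemannRochSpace B :=
      L_mono (sub_le_self B (NS.sumDiv_nonneg Q)) hf
    refine ⟨hfB, fun i => ?_⟩
    rw [val_eq_zero_iff _ (adic_le_one_of_mem_L hfB (hB i)), adic_lt_one_iff]
    have := hf (Q i)
    rwa [Finsupp.sub_apply, hB, sumDiv_apply_self hQ, zero_sub] at this
  · rintro ⟨hfB, hz⟩ v
    by_cases hv : ∃ i, Q i = v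
    · obtain ⟨i, rfl⟩ := hv
      rw [Finsupp.sub_apply, hB, sumDiv_apply_self hQ, zero_sub, ← adic_lt_one_iff,
        ← val_eq_zero_iff _ (adic_le_one_of_mem_L hfB (hB i))]
      exact hz i
    · push Not at hv
      rw [Finsupp.sub_apply, NS.sumDiv_apply_of_ne Q hv, sub_zero]
      exact hfB v

theorem sub_sumDiv_add_divOf_eq_zero {ι : Type*} [Fintype ι] {B : Divisor K F} {Q : ι → Place K F}
    (hQ : Function.Injective Q) (hB : ∀ i, B (Q i) = 0)
    (hdeg : Divisor.degree B = Fintype.card ι) {f : F} (hf0 : f ≠ 0)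
    (hf : f ∈ riemannRochSpace B) (hz : ∀ i, val (Q i) f = 0) :
    B - sumDiv Q + divOf f = 0 := by
  apply NS.eq_zero_of_degree_eq_zero
  · exact effective_of_mem_L hf0 ((mem_L_sub_sumDiv_iff hQ hB).2 ⟨hf, hz⟩)
  · rw [map_add, map_sub, hdeg, degree_sumDiv, degree_divOf hf0]
    ring

/-- **zero count**: a nonzero section of `L(B)` vanishing at `deg B` distinct places outside the
support of `B` has exactly these zeros. -/
theorem linEq_of_zeros {ι : Type*} [Fintype ι] {B : Divisor K F} {Q : ι → Place K F}
    (hQ : Function.Injective Q) (hB : ∀ i, B (Q i) = 0)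
    (hdeg : Divisor.degree B = Fintype.card ι) {f : F} (hf0 : f ≠ 0)
    (hf : f ∈ riemannRochSpace B) (hz : ∀ i, val (Q i) f = 0) : LinEq (sumDiv Q) B := by
  have h0 := sub_sumDiv_add_divOf_eq_zero hQ hB hdeg hf0 hf hz
  unfold LinEq
  rw [mem_principal_iff]
  refine ⟨f, hf0, ?_⟩
  have : sumDiv Q - B = (B - sumDiv Q + divOf f) + (sumDiv Q - B) := by rw [h0, zero_add]
  rw [this]
  abel

/-- order one at the places `Q i` in the situation of `linEq_of_zeros`. -/
theorem ord_eq_one_of_zeros {ι : Type*} [Fintype ι] {B : Divisor K F} {Q : ι → Place K F}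
    (hQ : Function.Injective Q) (hB : ∀ i, B (Q i) = 0)
    (hdeg : Divisor.degree B = Fintype.card ι) {f : F} (hf0 : f ≠ 0)
    (hf : f ∈ riemannRochSpace B) (hz : ∀ i, val (Q i) f = 0) (i : ι) : (Q i).ord f = 1 := by
  have h0 := sub_sumDiv_add_divOf_eq_zero hQ hB hdeg hf0 hf hz
  have := DFunLike.congr_fun h0 (Q i)
  rw [Finsupp.add_apply, Finsupp.sub_apply, hB, sumDiv_apply_self hQ, divOf_apply,
    Finsupp.zero_apply] at this
  omega

end Fermat.Agent.S27.Alt
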