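import Fermat.Agent.S27.NonSpecial
import Fermat.Agent.S27.Top
import Fermat.Agent.S27.ChartExists

/-!
# S27 / alternative core: analytic charts on the set of places of `F / ℂ` (interface)
-/

set_option autoImplicit false

open AlgebraicCurve WithZero Module Filter Topology

namespace Fermat.Agent.S27.Alt

variable {F : Type*} [Field F] [Algebra ℂ F]

/-- basic neighbourhood of a place `P`: the places at which the finitely many functions of `s`
are regular and take values `δ`-close to their values at `P`. -/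
def basicNhd (P : Place ℂ F) (s : Finset F) (δ : ℝ) : Set (Place ℂ F) :=
  {Q | ∀ f ∈ s, Q.adicValuation f ≤ 1 ∧ ‖val Q f - val P f‖ < δ}

/-- `N` is a neighbourhood of `P`. -/
def IsNhd (P : Place ℂ F) (N : Set (Place ℂ F)) : Prop :=
  ∃ (s : Finset F) (δ : ℝ), 0 < δ ∧ (∀ f ∈ s, P.adicValuation f ≤ 1) ∧ basicNhd P s δ ⊆ N

/-- an analytic chart centred at the place `P`. -/
structure Chart (P : Place ℂ F) where
  /-- the uniformiser -/
  t : F
  unif : P.adicValuation t = exp (-1 : ℤ)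
  /-- the family of places -/
  pt : ℂ → Place ℂ F
  pt_zero : pt 0 = P
  analytic : ∀ f : F, P.adicValuation f ≤ 1 → ∃ h : ℂ → ℂ, AnalyticAt ℂ h 0 ∧
    ∀ᶠ z in 𝓝 (0 : ℂ), (pt z).adicValuation f ≤ 1 ∧ val (pt z) f = h z
  val_t : ∀ᶠ z in 𝓝 (0 : ℂ), val (pt z) t = z
  isNhd : ∀ U ∈ 𝓝 (0 : ℂ), IsNhd P (pt '' U)

variable [IsFF ℂ F]

/-- (B-cpt) compactness of the set of places, in finite subcover form. -/
theorem exists_finite_subcover (N : Place ℂ F → Set (Place ℂ F)) (hN : ∀ P, IsNhd P (N P)) :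
    ∃ T : Finset (Place ℂ F), ∀ Q, ∃ P ∈ T, Q ∈ N P :=
  S27.exists_finite_nhds_subcover N fun P => S27.mem_nhds_place_iff.2 (hN P)

/-- `IsNhd` is the neighbourhood relation of the Tychonoff topology of `S27/Top.lean`. -/
theorem isNhd_iff_mem_nhds {P : Place ℂ F} {N : Set (Place ℂ F)} : IsNhd P N ↔ N ∈ 𝓝 P :=
  S27.mem_nhds_place_iff.symm

/-- (B-chart) every uniformiser is the coordinate of a chart. -/
theorem exists_chart (P : Place ℂ F) (t : F) (ht : P.adicValuation t = exp (-1 : ℤ)) :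
    ∃ C : Chart P, C.t = t := by
  obtain ⟨ch, h1, h2, h3⟩ := S27.exists_chart P t ht
  have h0 : (0 : ℂ) ∈ Metric.ball ch.c ch.r := by
    rw [h2]; exact Metric.mem_ball_self ch.r_pos
  refine ⟨{ t := t, unif := ht, pt := ch.Q, pt_zero := h3, analytic := ?_, val_t := ?_,
            isNhd := ?_ }, rfl⟩
  · intro f hf
    refine ⟨fun w => val (ch.Q w) f, ch.analytic f 0 h0 (h3 ▸ hf), ?_⟩
    filter_upwards [ch.regular_nhds f 0 h0 (h3 ▸ hf)] with z hz
    exact ⟨hz, rfl⟩
  · filter_upwards [Metric.isOpen_ball.mem_nhds h0] with z hz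
    rw [← h1]
    exact ch.val_t hz
  · intro U hU
    rw [isNhd_iff_mem_nhds]
    obtain ⟨ε, hε, hεU⟩ := Metric.mem_nhds_iff.1 hU
    have hsub : Metric.ball (0 : ℂ) (min ε ch.r) ⊆ Metric.ball ch.c ch.r := by
      rw [h2]; exact Metric.ball_subset_ball (min_le_right _ _)
    have hop := ch.isOpen_image 0 (min ε ch.r) hsub
    refine Filter.mem_of_superset
      (hop.mem_nhds ⟨0, Metric.mem_ball_self (lt_min hε ch.r_pos), h3⟩) ?_
    exact Set.image_mono ((Metric.ball_subset_ball (min_le_left _ _)).trans hεU)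

end Fermat.Agent.S27.Alt
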