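import Fermat.Agent.S27.Alt.Basic
import Fermat.Agent.S27.Alt.Chart

/-!
# S27 / alternative core: elementary consequences of the chart interface
-/

set_option autoImplicit false
set_option linter.unusedSectionVars false

open AlgebraicCurve WithZero Module Filter Topology

namespace Fermat.Agent.S27.Alt

variable {F : Type*} [Field F] [Algebra ℂ F] [IsFF ℂ F]

/-- values along a chart are continuous at the centre (ε-form). -/
theorem Chart.eventually_val_near {P : Place ℂ F} (C : Chart P) {f : F}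
    (hf : P.adicValuation f ≤ 1) {ε : ℝ} (hε : 0 < ε) :
    ∀ᶠ z in 𝓝 (0 : ℂ), (C.pt z).adicValuation f ≤ 1 ∧ ‖val (C.pt z) f - val P f‖ < ε := by
  obtain ⟨h, hh, hev⟩ := C.analytic f hf
  have h0 : h 0 = val P f := by
    have := hev.self_of_nhds
    rw [C.pt_zero] at this
    exact this.2.symm
  have hc : ContinuousAt h 0 := hh.continuousAt
  have h1 : ∀ᶠ z in 𝓝 (0 : ℂ), ‖h z - h 0‖ < ε := by
    have := Metric.continuousAt_iff'.1 hc ε hε
    filter_upwards [this] with z hz
    rwa [← dist_eq_norm]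
  filter_upwards [hev, h1] with z hz hz1
  refine ⟨hz.1, ?_⟩
  rw [hz.2, ← h0]
  exact hz1

/-- (C'-ch1) charts at distinct places have eventually distinct points. -/
theorem Chart.eventually_ne {P Q : Place ℂ F} (h : P ≠ Q) (CP : Chart P) (CQ : Chart Q) :
    ∀ᶠ p in 𝓝 ((0 : ℂ), (0 : ℂ)), CP.pt p.1 ≠ CQ.pt p.2 := by
  obtain ⟨f, hfP, hfQ⟩ := exists_sep h
  have hvP : val P f = 0 := val_unique P (by simpa using hfP)
  have hvQ : val Q f = 1 := val_unique Q (by simpa using hfQ)
  have hQ1 : Q.adicValuation f ≤ 1 := by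
    have : f = (f - 1) + 1 := by ring
    rw [this]
    exact (Valuation.map_add _ _ _).trans (max_le hfQ.le (by simp))
  have e1 := CP.eventually_val_near hfP.le (ε := 1 / 2) (by norm_num)
  have e2 := CQ.eventually_val_near hQ1 (ε := 1 / 2) (by norm_num)
  rw [nhds_prod_eq]
  filter_upwards [e1.prod_mk e2] with p hp heq
  obtain ⟨⟨-, h1⟩, ⟨-, h2⟩⟩ := hp
  rw [hvP, sub_zero] at h1
  rw [hvQ, ← heq] at h2
  have h3 : ‖(1 : ℂ)‖ ≤ ‖val (CP.pt p.1) f‖ + ‖val (CP.pt p.1) f - 1‖ := by
    have := norm_sub_le (val (CP.pt p.1) f) (val (CP.pt p.1) f - 1)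
    simpa using this
  rw [norm_one] at h3
  linarith

/-- (C'-ch2) a chart is eventually injective. -/
theorem Chart.eventually_inj {P : Place ℂ F} (C : Chart P) :
    ∀ᶠ p in 𝓝 ((0 : ℂ), (0 : ℂ)), C.pt p.1 = C.pt p.2 → p.1 = p.2 := by
  rw [nhds_prod_eq]
  filter_upwards [C.val_t.prod_mk C.val_t] with p hp heq
  obtain ⟨h1, h2⟩ := hp
  rw [← h1, ← h2, heq]

/-- a chart eventually avoids a place different from its centre. -/
theorem Chart.eventually_ne_place {P Q : Place ℂ F} (h : P ≠ Q) (C : Chart P) :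
    ∀ᶠ z in 𝓝 (0 : ℂ), C.pt z ≠ Q := by
  obtain ⟨f, hfP, hfQ⟩ := exists_sep h
  have hvP : val P f = 0 := val_unique P (by simpa using hfP)
  have hvQ : val Q f = 1 := val_unique Q (by simpa using hfQ)
  filter_upwards [C.eventually_val_near hfP.le (ε := 1) one_pos] with z hz heq
  have h1 := hz.2
  rw [heq, hvP, hvQ, sub_zero, norm_one] at h1
  exact lt_irrefl _ h1

/-- (C'-ch3) a chart eventually avoids a finite set not containing its centre. -/
theorem Chart.eventually_notMem {P : Place ℂ F} (C : Chart P) (S : Set (Place ℂ F))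
    (hS : S.Finite) (hP : P ∉ S) : ∀ᶠ z in 𝓝 (0 : ℂ), C.pt z ∉ S := by
  have h1 : ∀ᶠ z in 𝓝 (0 : ℂ), ∀ Q ∈ S, C.pt z ≠ Q := by
    rw [eventually_all_finite hS]
    intro Q hQ
    exact C.eventually_ne_place (fun h : P = Q => hP (h.symm ▸ hQ))
  filter_upwards [h1] with z hz hmem
  exact hz _ hmem rfl

/-- the moving family of places attached to a family of charts. -/
def mv {ι : Type*} {R : ι → Place ℂ F} (C : ∀ i, Chart (R i)) (z : ι → ℂ) : ι → Place ℂ F :=
  fun i => (C i).pt (z i)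

theorem mv_zero {ι : Type*} {R : ι → Place ℂ F} (C : ∀ i, Chart (R i)) : mv C 0 = R := by
  funext i
  exact (C i).pt_zero

end Fermat.Agent.S27.Alt
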