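import Fermat.Agent.S27.Alt.Two

/-!
# S27 / alternative core: the local group law
-/

set_option autoImplicit false

open AlgebraicCurve WithZero Module Filter Topology

namespace Fermat.Agent.S27.Alt

variable {F : Type*} [Field F] [Algebra ℂ F] [IsFF ℂ F]

/-- (C'-T1) the local group law in the chart `cmap`. -/
theorem exists_group_law {g : ℕ} (hg : genusFF ℂ F = g) {P : Fin g → Place ℂ F}
    (hP : IsNS P) (CP : ∀ i, Chart (P i)) :
    ∃ μ : (Fin g → ℂ) × (Fin g → ℂ) → (Fin g → ℂ), ContDiffAt ℂ 2 μ (0, 0) ∧ μ (0, 0) = 0 ∧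
      ∀ᶠ p in 𝓝 ((0 : Fin g → ℂ), (0 : Fin g → ℂ)),
        cmap CP (μ p) = cmap CP p.1 + cmap CP p.2 := by
  obtain ⟨Q, hQ, hQS⟩ := exists_isNS hg (Set.range P) (Set.finite_range P)
  obtain ⟨R, hR, hRS⟩ := exists_isNS hg (Set.range P ∪ Set.range Q)
    ((Set.finite_range P).union (Set.finite_range Q))
  have hC : ∀ w : Place ℂ F, Nonempty (Chart w) := fun w => by
    obtain ⟨t, ht⟩ := exists_unif w
    obtain ⟨C, -⟩ := exists_chart w t ht
    exact ⟨C⟩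
  let CQ : ∀ i, Chart (Q i) := fun i => (hC _).some
  let CR : ∀ i, Chart (R i) := fun i => (hC _).some
  have hPQ : ∀ i j, P i ≠ Q j := fun i j h => hQS j ⟨i, h⟩
  have hPR : ∀ i j, P i ≠ R j := fun i j h => hRS j (Or.inl ⟨i, h⟩)
  have hQR : ∀ i j, Q i ≠ R j := fun i j h => hRS j (Or.inr ⟨i, h⟩)
  obtain ⟨a, hac, ha0, ha⟩ := exists_resid_two hg hP hQ hPQ CP CQ
  obtain ⟨b, hbc, hb0, hb⟩ := exists_resid_two hg hQ hR hQR CQ CR
  obtain ⟨c, hcc, hc0, hc⟩ := exists_resid_two hg hQ hP (fun i j => (hPQ j i).symm) CQ CP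
  obtain ⟨s, hsc, hs0, hs⟩ := exists_resid_three hg hP hR hQ hPR hPQ
    (fun i j => (hQR j i).symm) CP CR CQ
  have ta : Tendsto a (𝓝 0) (𝓝 0) := by
    have := hac.continuousAt.tendsto
    rwa [ha0] at this
  -- `τ = b ∘ a`
  have hτc : ContDiffAt ℂ 2 (fun y => b (a y)) 0 :=
    ContDiffAt.comp (g := b) (f := a) 0 (by rw [ha0]; exact hbc) hac
  have hτ0 : b (a 0) = 0 := by rw [ha0, hb0]
  have hτ : ∀ᶠ y in 𝓝 (0 : Fin g → ℂ), cmap CP y = cmap CR (b (a y)) := by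
    filter_upwards [ha, ta.eventually hb] with y h1 h2
    rw [h1, h2, neg_neg]
  -- the inner map
  have hic : ContDiffAt ℂ 2
      (fun p : (Fin g → ℂ) × (Fin g → ℂ) => ((p.1, b (a p.2)) : (Fin g → ℂ) × (Fin g → ℂ)))
      (0, 0) :=
    contDiffAt_fst.prodMk (ContDiffAt.comp (g := fun y => b (a y)) (f := Prod.snd) (0, 0) hτc
      contDiffAt_snd)
  have hi0 : ((((0 : Fin g → ℂ), (0 : Fin g → ℂ)) : (Fin g → ℂ) × (Fin g → ℂ)).1,
      b (a ((0 : Fin g → ℂ), (0 : Fin g → ℂ)).2)) = ((0 : Fin g → ℂ), (0 : Fin g → ℂ)) := by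
    show ((0 : Fin g → ℂ), b (a 0)) = _
    rw [hτ0]
  have ti : Tendsto
      (fun p : (Fin g → ℂ) × (Fin g → ℂ) => ((p.1, b (a p.2)) : (Fin g → ℂ) × (Fin g → ℂ)))
      (𝓝 (0, 0)) (𝓝 (0, 0)) := by
    have := hic.continuousAt.tendsto
    rwa [hi0] at this
  have hsic : ContDiffAt ℂ 2
      (fun p : (Fin g → ℂ) × (Fin g → ℂ) => s (p.1, b (a p.2))) (0, 0) :=
    ContDiffAt.comp (g := s)
      (f := fun p : (Fin g → ℂ) × (Fin g → ℂ) => ((p.1, b (a p.2)) : (Fin g → ℂ) × (Fin g → ℂ)))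
      (0, 0) (by rw [hi0]; exact hsc) hic
  have hsi0 : s ((((0 : Fin g → ℂ), (0 : Fin g → ℂ)) : (Fin g → ℂ) × (Fin g → ℂ)).1,
      b (a ((0 : Fin g → ℂ), (0 : Fin g → ℂ)).2)) = 0 := by
    rw [hi0, hs0]
  have tsi : Tendsto (fun p : (Fin g → ℂ) × (Fin g → ℂ) => s (p.1, b (a p.2)))
      (𝓝 (0, 0)) (𝓝 0) := by
    have := hsic.continuousAt.tendsto
    rwa [hsi0] at this
  refine ⟨fun p => c (s (p.1, b (a p.2))), ?_, ?_, ?_⟩
  · exact ContDiffAt.comp (g := c)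
      (f := fun p : (Fin g → ℂ) × (Fin g → ℂ) => s (p.1, b (a p.2))) (0, 0)
      (by rw [hsi0]; exact hcc) hsic
  · show c (s _) = 0
    rw [hsi0, hc0]
  · have hsnd : Tendsto (Prod.snd : (Fin g → ℂ) × (Fin g → ℂ) → (Fin g → ℂ)) (𝓝 (0, 0)) (𝓝 0) :=
      continuous_snd.tendsto' _ _ rfl
    filter_upwards [hsnd.eventually hτ, ti.eventually hs, tsi.eventually hc] with p h1 h2 h3
    have h2' : cmap CP p.1 + cmap CR (b (a p.2)) = -cmap CQ (s (p.1, b (a p.2))) := h2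
    rw [h1, h2', h3, neg_neg]

end Fermat.Agent.S27.Alt
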