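import Fermat.Agent.S27.Alt.Small
import Fermat.Agent.S27.Alt.Law

/-!
# S27 / alternative core: finite covering
-/

set_option autoImplicit false

open AlgebraicCurve WithZero Module Filter Topology

namespace Fermat.Agent.S27.Alt

variable {F : Type*} [Field F] [Algebra ℂ F] [IsFF ℂ F]

/-- sums of `m` small elements of the image of the chart are small elements of the image. -/
theorem exists_nhds_sum_cmap {g : ℕ} (hg : genusFF ℂ F = g) {P : Fin g → Place ℂ F}
    (hP : IsNS P) (CP : ∀ i, Chart (P i)) (m : ℕ) :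
    ∀ V ∈ 𝓝 (0 : Fin g → ℂ), ∃ V1 ∈ 𝓝 (0 : Fin g → ℂ), ∀ x : Fin m → (Fin g → ℂ),
      (∀ j, x j ∈ V1) → ∃ v ∈ V, ∑ j, cmap CP (x j) = cmap CP v := by
  obtain ⟨μ, hμ, hμ0, hadd⟩ := exists_group_law hg hP CP
  induction m with
  | zero =>
    intro V hV
    exact ⟨V, hV, fun x _ => ⟨0, mem_of_mem_nhds hV, by simp [cmap_zero]⟩⟩
  | succ m ih =>
    intro V hV
    have h1 : ∀ᶠ p in 𝓝 ((0 : Fin g → ℂ), (0 : Fin g → ℂ)), μ p ∈ V := by
      have := hμ.continuousAt.tendsto
      rw [hμ0] at this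
      exact this hV
    have h2 := h1.and hadd
    rw [nhds_prod_eq, Filter.eventually_prod_iff] at h2
    obtain ⟨pa, hpa, pb, hpb, hab⟩ := h2
    obtain ⟨V1, hV1, hsum⟩ := ih {y | pb y} hpb
    refine ⟨{y | pa y} ∩ V1, Filter.inter_mem hpa hV1, fun x hx => ?_⟩
    obtain ⟨b, hb, hbs⟩ := hsum (fun j => x j.succ) fun j => (hx j.succ).2
    have h3 := hab (hx 0).1 hb
    refine ⟨μ (x 0, b), h3.1, ?_⟩
    rw [Fin.sum_univ_succ, hbs, h3.2]

/-- (C'-T5) `Pic0` is covered by finitely many translates of the image of a neighbourhood. -/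
theorem exists_finite_cover_cmap {g : ℕ} (hg : genusFF ℂ F = g) {P : Fin g → Place ℂ F}
    (hP : IsNS P) (CP : ∀ i, Chart (P i)) (V : Set (Fin g → ℂ)) (hV : V ∈ 𝓝 0) :
    ∃ T : Finset (Pic0 ℂ F), ∀ γ : Pic0 ℂ F, ∃ τ ∈ T, ∃ v ∈ V, γ = τ + cmap CP v := by
  classical
  obtain ⟨V1, hV1, hsum⟩ := exists_nhds_sum_cmap hg hP CP g V hV
  obtain ⟨T0, hT0⟩ := exists_finite_subcover
    (fun P' : Place ℂ F =>
      {Q | ∃ x ∈ V1, cmap CP x = pc (Finsupp.single Q 1 - Finsupp.single P' 1)})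
    (fun P' => isNhd_cmap hg hP CP P' V1 hV1)
  have := infinite_places ℂ F
  obtain ⟨P0⟩ : Nonempty (Place ℂ F) := inferInstance
  have hd : ∀ v w : Place ℂ F,
      Divisor.degree (Finsupp.single v (1 : ℤ) - Finsupp.single w (1 : ℤ)) = 0 := by
    intro v w
    rw [map_sub, degree_single, degree_single, sub_self]
  have hpcsum : ∀ (s : Finset (Fin g)) (D : Fin g → Divisor ℂ F),
      (∀ j, Divisor.degree (D j) = 0) → pc (∑ j ∈ s, D j) = ∑ j ∈ s, pc (D j) := by
    intro s D hD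
    induction s using Finset.induction_on with
    | empty => simp [pc_zero]
    | insert a s ha ih =>
      rw [Finset.sum_insert ha, Finset.sum_insert ha, pc_add (hD a), ih]
      rw [map_sum]
      exact Finset.sum_eq_zero fun j _ => hD j
  refine ⟨(Finset.univ : Finset (Fin g → T0)).image fun p =>
    ∑ j, pc (Finsupp.single (p j : Place ℂ F) 1 - Finsupp.single P0 1), fun γ => ?_⟩
  obtain ⟨D, hD, rfl⟩ := pc_surjective γ
  obtain ⟨R, hR⟩ := exists_effective hg (D + Finsupp.single P0 (g : ℤ))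
    (by rw [map_add, hD, degree_single, zero_add])
  choose p hpT x hxV hx using fun j => hT0 (R j)
  obtain ⟨v, hv, hvs⟩ := hsum x hxV
  refine ⟨_, Finset.mem_image_of_mem _ (Finset.mem_univ fun j => ⟨p j, hpT j⟩), v, hv, ?_⟩
  rw [← hvs, ← Finset.sum_add_distrib]
  have h1 : ∀ j, pc (Finsupp.single (p j) (1 : ℤ) - Finsupp.single P0 (1 : ℤ)) + cmap CP (x j) =
      pc (Finsupp.single (R j) (1 : ℤ) - Finsupp.single P0 (1 : ℤ)) := by
    intro j
    rw [hx j, ← pc_add (hd _ _) (hd _ _)]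
    congr 1
    abel
  simp only [h1]
  rw [← hpcsum _ _ fun j => hd _ _]
  have hdeg : Divisor.degree
      (∑ j, (Finsupp.single (R j) (1 : ℤ) - Finsupp.single P0 (1 : ℤ)) : Divisor ℂ F) = 0 := by
    rw [map_sum]
    exact Finset.sum_eq_zero fun j _ => hd _ _
  rw [pc_eq_iff hD hdeg]
  unfold LinEq at hR ⊢
  have h2 : D - ∑ j, (Finsupp.single (R j) (1 : ℤ) - Finsupp.single P0 (1 : ℤ)) =
      D + Finsupp.single P0 (g : ℤ) - sumDiv R := by
    unfold sumDiv
    rw [Finset.sum_sub_distrib, Finset.sum_const, Finset.card_univ, Fintype.card_fin,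
      Finsupp.smul_single]
    simp only [nsmul_eq_mul, mul_one]
    abel
  rw [h2]
  exact hR

end Fermat.Agent.S27.Alt
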