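import Fermat.Agent.S27.Alt.Small

/-!
# S27 / alternative core: generation
-/

set_option autoImplicit false

open AlgebraicCurve WithZero Module Filter Topology

namespace Fermat.Agent.S27.Alt

variable {F : Type*} [Field F] [Algebra ℂ F] [IsFF ℂ F]

/-- the points of a chart converge to its centre. -/
theorem Chart.tendsto_pt {P : Place ℂ F} (C : Chart P) : Tendsto C.pt (𝓝 0) (𝓝 P) := by
  rw [S27.tendsto_nhds_place_iff]
  intro f hf
  obtain ⟨h, hh, hev⟩ := C.analytic f hf
  refine ⟨hev.mono fun z hz => hz.1, ?_⟩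
  have h0 : h 0 = val P f := by
    have := hev.self_of_nhds
    rw [C.pt_zero] at this
    exact this.2.symm
  rw [← h0]
  exact hh.continuousAt.tendsto.congr' (hev.mono fun z hz => hz.2.symm)

/-- (maximum principle) a clopen set of places which misses a place is empty. -/
theorem eq_empty_of_isClopen {S : Set (Place ℂ F)} (hS : IsClopen S) {P0 : Place ℂ F}
    (hP0 : P0 ∉ S) : S = ∅ := by
  by_contra hne
  have hne' : S.Nonempty := Set.nonempty_iff_ne_empty.2 hne
  obtain ⟨f, hfP0, hf⟩ := exists_single_pole P0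
  have hreg : ∀ v ∈ S, v.adicValuation f ≤ 1 := fun v hv => hf v (fun h => hP0 (h ▸ hv))
  have hcont : ContinuousOn (fun v : Place ℂ F => ‖val v f‖) S :=
    ((S27.continuousOn_val f).mono hreg).norm
  obtain ⟨Q, hQS, hQmax⟩ := hS.1.isCompact.exists_isMaxOn hne' hcont
  obtain ⟨t, ht⟩ := exists_unif Q
  obtain ⟨C, -⟩ := exists_chart Q t ht
  obtain ⟨h, hh, hev⟩ := C.analytic f (hreg Q hQS)
  have h0 : h 0 = val Q f := by
    have := hev.self_of_nhds
    rw [C.pt_zero] at this
    exact this.2.symm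
  have hmem : ∀ᶠ z in 𝓝 (0 : ℂ), C.pt z ∈ S := C.tendsto_pt (hS.2.mem_nhds hQS)
  have hloc : IsLocalMax (norm ∘ h) 0 := by
    filter_upwards [hev, hmem] with z hz hzS
    show ‖h z‖ ≤ ‖h 0‖
    rw [h0, ← hz.2]
    exact hQmax hzS
  have hconst : ∀ᶠ z in 𝓝 (0 : ℂ), h z = h 0 :=
    Complex.eventually_eq_of_isLocalMax_norm
      (hh.eventually_analyticAt.mono fun z hz => hz.differentiableAt) hloc
  have hf0 : f - algebraMap ℂ F (h 0) ≠ 0 := by
    intro h1
    apply hfP0
    rw [sub_eq_zero.1 h1]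
    by_cases hc : h 0 = 0
    · rw [hc, map_zero, map_zero]; exact zero_le_one
    · exact (adic_algebraMap P0 hc).le
  have hfin := finite_zeros (K := ℂ) hf0
  have hW : {z : ℂ | ((C.pt z).adicValuation f ≤ 1 ∧ val (C.pt z) f = h z) ∧ h z = h 0 ∧
      val (C.pt z) C.t = z} ∈ 𝓝 (0 : ℂ) := hev.and (hconst.and C.val_t)
  have hinf := infinite_of_mem_nhds (0 : ℂ) hW
  refine hinf (Set.Finite.of_finite_image (f := C.pt) (hfin.subset ?_) ?_)
  · rintro _ ⟨z, ⟨⟨hz1, hz2⟩, hz3, -⟩, rfl⟩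
    have := val_spec (C.pt z) hz1
    rwa [hz2, hz3] at this
  · intro z hz z' hz' hzz'
    rw [← hz.2.2, ← hz'.2.2, hzz']

/-- (C'-T4) every neighbourhood of `0` generates `Pic0`. -/
theorem closure_cmap_eq_top {g : ℕ} (hg : genusFF ℂ F = g) {P : Fin g → Place ℂ F}
    (hP : IsNS P) (CP : ∀ i, Chart (P i)) (V : Set (Fin g → ℂ)) (hV : V ∈ 𝓝 0) :
    AddSubgroup.closure (cmap CP '' V) = ⊤ := by
  set H := AddSubgroup.closure (cmap CP '' V) with hH
  have hd : ∀ v w : Place ℂ F,
      Divisor.degree (Finsupp.single v (1 : ℤ) - Finsupp.single w (1 : ℤ)) = 0 := by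
    intro v w
    rw [map_sub, degree_single, degree_single, sub_self]
  have hadd : ∀ u v w : Place ℂ F, pc (Finsupp.single u (1 : ℤ) - Finsupp.single w (1 : ℤ)) =
      pc (Finsupp.single u (1 : ℤ) - Finsupp.single v (1 : ℤ)) +
        pc (Finsupp.single v (1 : ℤ) - Finsupp.single w (1 : ℤ)) := by
    intro u v w
    rw [← pc_add (hd u v) (hd v w), sub_add_sub_cancel]
  have hnear : ∀ v : Place ℂ F,
      {Q | pc (Finsupp.single Q (1 : ℤ) - Finsupp.single v (1 : ℤ)) ∈ H} ∈ 𝓝 v := by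
    intro v
    refine Filter.mem_of_superset (isNhd_iff_mem_nhds.1 (isNhd_cmap hg hP CP v V hV)) ?_
    rintro Q ⟨x, hx, hxQ⟩
    show pc _ ∈ H
    rw [← hxQ]
    exact AddSubgroup.subset_closure ⟨x, hx, rfl⟩
  refine closure_pc_single_sub (fun v => deg_eq_one v) H fun v w => ?_
  by_contra hvw
  have hclopen : IsClopen {Q | pc (Finsupp.single Q (1 : ℤ) - Finsupp.single w (1 : ℤ)) ∈ H} := by
    constructor
    · rw [← isOpen_compl_iff, isOpen_iff_mem_nhds]
      intro Q hQ
      refine Filter.mem_of_superset (hnear Q) ?_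
      intro Q' hQ' hQ'w
      apply hQ
      show pc _ ∈ H
      have h1 := hadd Q' Q w
      have h2 : pc (Finsupp.single Q (1 : ℤ) - Finsupp.single w (1 : ℤ)) =
          pc (Finsupp.single Q' (1 : ℤ) - Finsupp.single w (1 : ℤ)) -
            pc (Finsupp.single Q' (1 : ℤ) - Finsupp.single Q (1 : ℤ)) := by
        rw [h1]; abel
      rw [h2]
      exact H.sub_mem hQ'w hQ'
    · rw [isOpen_iff_mem_nhds]
      intro Q hQ
      refine Filter.mem_of_superset (hnear Q) ?_
      intro Q' hQ'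
      show pc _ ∈ H
      rw [hadd Q' Q w]
      exact H.add_mem hQ' hQ
  have hempty := eq_empty_of_isClopen hclopen (P0 := v) hvw
  have hw : w ∈ {Q | pc (Finsupp.single Q (1 : ℤ) - Finsupp.single w (1 : ℤ)) ∈ H} := by
    show pc _ ∈ H
    rw [sub_self, pc_zero]
    exact H.zero_mem
  rw [hempty] at hw
  exact hw

end Fermat.Agent.S27.Alt
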