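import Fermat.Agent.S27.Alt.Inj
import Fermat.Agent.S27.Alt.Law
import Fermat.Agent.S27.Alt.Gen
import Fermat.Agent.S27.Alt.Cover
import Fermat.Agent.S27.LG.Main

/-!
# S27 / alternative core: assembly over `ℂ`
-/

set_option autoImplicit false

open AlgebraicCurve WithZero Module Filter Topology

namespace Fermat.Agent.S27.Alt

variable {F : Type*} [Field F] [Algebra ℂ F] [IsFF ℂ F]

/-- **the torsion count over `ℂ`**. -/
theorem card_torsion_complex (n : ℕ) (hn : 0 < n) :
    Nat.card (Pic0.torsion ℂ F n) = n ^ (2 * genusFF ℂ F) := by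
  obtain ⟨P, hP, -⟩ := exists_isNS (K := ℂ) (F := F) rfl ∅ Set.finite_empty
  have hC : ∀ i, Nonempty (Chart (P i)) := fun i => by
    obtain ⟨t, ht⟩ := exists_unif (P i)
    obtain ⟨C, -⟩ := exists_chart (P i) t ht
    exact ⟨C⟩
  let CP : ∀ i, Chart (P i) := fun i => (hC i).some
  obtain ⟨μ, hμ, hμ0, hadd⟩ := exists_group_law rfl hP CP
  have key := LG.card_torsion_of_local_group (cmap CP) μ (cmap_zero CP)
    (exists_injOn_cmap rfl hP CP) (hμ.restrict_scalars ℝ) hμ0 hadd
    (closure_cmap_eq_top rfl hP CP) (exists_finite_cover_cmap rfl hP CP) n hn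
  have hfr : Module.finrank ℝ (Fin (genusFF ℂ F) → ℂ) = 2 * genusFF ℂ F := by
    rw [Module.finrank_pi_fintype]
    simp [Complex.finrank_real_complex, mul_comm]
  rw [hfr] at key
  rw [← key]
  refine Nat.card_congr (Equiv.subtypeEquivRight fun γ => ?_)
  rw [Pic0.mem_torsion, natCast_zsmul]

end Fermat.Agent.S27.Alt
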