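import Mathlib

/-!
# S27 / alternative core: abstract analytic and linear algebra lemmas for the residuation lemma
(Mathlib only.)
-/

set_option autoImplicit false

open Filter Topology

namespace Fermat.Agent.S27.Alt

/-- scalar implicit function theorem with parameters. -/
theorem exists_implicit {E : Type*} [NormedAddCommGroup E] [NormedSpace ℂ E] [CompleteSpace E]
    (Ψ : E × ℂ → ℂ) (hΨ : ContDiffAt ℂ 2 Ψ (0, 0)) (h0 : Ψ (0, 0) = 0) {d : ℂ} (hd : d ≠ 0)
    (hder : HasDerivAt (fun u => Ψ (0, u)) d 0) :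
    ∃ σ : E → ℂ, ContDiffAt ℂ 2 σ 0 ∧ σ 0 = 0 ∧ ∀ᶠ z in 𝓝 (0 : E), Ψ (z, σ z) = 0 := by
  have h2 : (2 : WithTop ℕ∞) ≠ 0 := by norm_num
  have hdiff : HasFDerivAt Ψ (fderiv ℂ Ψ (0, 0)) (0, 0) :=
    (hΨ.differentiableAt h2).hasFDerivAt
  have hinr : HasFDerivAt (fun u : ℂ => ((0 : E), u)) (ContinuousLinearMap.inr ℂ E ℂ) 0 :=
    (ContinuousLinearMap.inr ℂ E ℂ).hasFDerivAt
  have hcomp : HasFDerivAt (fun u : ℂ => Ψ (0, u))
      (fderiv ℂ Ψ (0, 0) ∘L ContinuousLinearMap.inr ℂ E ℂ) 0 :=
    HasFDerivAt.comp (f := fun u : ℂ => ((0 : E), u)) (g := Ψ) 0 hdiff hinr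
  have hval : (fderiv ℂ Ψ (0, 0) ∘L ContinuousLinearMap.inr ℂ E ℂ) 1 = d := by
    have := hcomp.hasDerivAt.unique hder
    simpa using this
  have hinv : (fderiv ℂ Ψ (0, 0) ∘L ContinuousLinearMap.inr ℂ E ℂ).IsInvertible := by
    refine ⟨ContinuousLinearEquiv.unitsEquivAut ℂ (Units.mk0 d hd), ?_⟩
    ext
    rw [hval]
    simp
  refine ⟨hΨ.implicitFunction h2 hinv, hΨ.contDiffAt_implicitFunction h2 hinv,
    hΨ.implicitFunction_apply_self h2 hinv, ?_⟩
  have := hΨ.eventually_apply_implicitFunction h2 hinv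
  simpa [h0] using this

/-- determinants of matrices with `C^2` entries are `C^2`. -/
theorem contDiffAt_det {E : Type*} [NormedAddCommGroup E] [NormedSpace ℂ E]
    {n : Type*} [Fintype n] [DecidableEq n] {M : E → Matrix n n ℂ} {x : E}
    (h : ∀ i j, ContDiffAt ℂ 2 (fun p => M p i j) x) :
    ContDiffAt ℂ 2 (fun p => (M p).det) x := by
  simp only [Matrix.det_apply]
  refine ContDiffAt.sum fun σ _ => ?_
  refine ContDiffAt.const_smul _ ?_
  exact contDiffAt_prod fun i _ => h _ _

section Cramer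

variable {ι : Type*} [Fintype ι] [DecidableEq ι]

/-- the square matrix obtained by adding the row `r` to `A`. -/
def fullMat (A : Matrix ι (Option ι) ℂ) (r : Option ι → ℂ) : Matrix (Option ι) (Option ι) ℂ
  | none, j => r j
  | some i, j => A i j

omit [Fintype ι] [DecidableEq ι] in
@[simp] theorem fullMat_none (A : Matrix ι (Option ι) ℂ) (r : Option ι → ℂ) (j : Option ι) :
    fullMat A r none j = r j := rfl

omit [Fintype ι] [DecidableEq ι] in
@[simp] theorem fullMat_some (A : Matrix ι (Option ι) ℂ) (r : Option ι → ℂ) (i : ι)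
    (j : Option ι) : fullMat A r (some i) j = A i j := rfl

/-- the vector of maximal minors (with signs) of `A`. -/
noncomputable def cofVec (A : Matrix ι (Option ι) ℂ) (j : Option ι) : ℂ :=
  (fullMat A (Pi.single j 1)).det

theorem fullMat_updateRow (A : Matrix ι (Option ι) ℂ) (r r' : Option ι → ℂ) :
    (fullMat A r).updateRow none r' = fullMat A r' := by
  ext o j
  cases o with
  | none => simp
  | some i => simp [Matrix.updateRow_apply]

theorem adjugate_fullMat (A : Matrix ι (Option ι) ℂ) (r : Option ι → ℂ) (j : Option ι) :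
    (fullMat A r).adjugate j none = cofVec A j := by
  rw [Matrix.adjugate_apply, fullMat_updateRow, cofVec]

/-- (C1) the cofactor vector is killed by `A`. -/
theorem sum_mul_cofVec (A : Matrix ι (Option ι) ℂ) (i : ι) : ∑ j, A i j * cofVec A j = 0 := by
  have h := congrFun (congrFun (Matrix.mul_adjugate (fullMat A 0)) (some i)) none
  rw [Matrix.mul_apply] at h
  simp only [adjugate_fullMat] at h
  simpa using h

/-- (C2) expansion along the added row. -/
theorem det_fullMat (A : Matrix ι (Option ι) ℂ) (r : Option ι → ℂ) :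
    (fullMat A r).det = ∑ j, r j * cofVec A j := by
  have h := congrFun (congrFun (Matrix.mul_adjugate (fullMat A r)) none) none
  rw [Matrix.mul_apply] at h
  simp only [adjugate_fullMat] at h
  simpa using h.symm

/-- (C3) a kernel vector whose `j0`-th coordinate vanishes is zero if the `j0`-th cofactor is
nonzero. -/
theorem eq_zero_of_cofVec_ne_zero (A : Matrix ι (Option ι) ℂ) {j0 : Option ι}
    (hj0 : cofVec A j0 ≠ 0) {x : Option ι → ℂ} (hx : ∀ i, ∑ j, A i j * x j = 0) (hx0 : x j0 = 0) :
    x = 0 := by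
  by_contra hne
  apply hj0
  rw [cofVec, ← Matrix.exists_mulVec_eq_zero_iff]
  refine ⟨x, hne, ?_⟩
  funext o
  cases o with
  | none =>
    simp only [Matrix.mulVec, dotProduct, fullMat_none, Pi.single_apply, ite_mul, one_mul,
      zero_mul, Finset.sum_ite_eq', Finset.mem_univ, if_true, hx0, Pi.zero_apply]
  | some i =>
    simp only [Matrix.mulVec, dotProduct, fullMat_some, Pi.zero_apply]
    exact hx i

/-- (C3') the kernel of `A` is spanned by the cofactor vector as soon as the latter is nonzero. -/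
theorem eq_smul_cofVec (A : Matrix ι (Option ι) ℂ) {j0 : Option ι}
    (hj0 : cofVec A j0 ≠ 0) {x : Option ι → ℂ} (hx : ∀ i, ∑ j, A i j * x j = 0) :
    x = (x j0 / cofVec A j0) • cofVec A := by
  have h : x - (x j0 / cofVec A j0) • cofVec A = 0 := by
    apply eq_zero_of_cofVec_ne_zero A hj0
    · intro i
      simp only [Pi.sub_apply, Pi.smul_apply, smul_eq_mul, mul_sub, Finset.sum_sub_distrib, hx i,
        zero_sub, neg_eq_zero]
      have := sum_mul_cofVec A i
      calc ∑ j, A i j * (x j0 / cofVec A j0 * cofVec A j)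
          = (x j0 / cofVec A j0) * ∑ j, A i j * cofVec A j := by
            rw [Finset.mul_sum]; exact Finset.sum_congr rfl fun j _ => by ring
        _ = 0 := by rw [this, mul_zero]
    · simp only [Pi.sub_apply, Pi.smul_apply, smul_eq_mul]
      field_simp
      ring
  exact sub_eq_zero.1 h

/-- (C4) if the kernel of `A` is a line, some cofactor is nonzero. -/
theorem exists_cofVec_ne_zero (A : Matrix ι (Option ι) ℂ) {c : Option ι → ℂ} (hc : c ≠ 0)
    (hker : ∀ x : Option ι → ℂ, (∀ i, ∑ j, A i j * x j = 0) → ∃ l : ℂ, x = l • c) :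
    ∃ j0, cofVec A j0 ≠ 0 := by
  obtain ⟨j0, hj0⟩ : ∃ j0, c j0 ≠ 0 := by
    by_contra h
    push Not at h
    exact hc (funext h)
  refine ⟨j0, ?_⟩
  rw [cofVec]
  intro hdet
  obtain ⟨x, hx0, hx⟩ := Matrix.exists_mulVec_eq_zero_iff.2 hdet
  obtain ⟨l, hl⟩ := hker x (fun i => by
    have := congrFun hx (some i)
    simpa only [Matrix.mulVec, dotProduct, fullMat_some, Pi.zero_apply] using this)
  have h1 : x j0 = 0 := by
    have := congrFun hx none
    simpa only [Matrix.mulVec, dotProduct, fullMat_none, Pi.single_apply, ite_mul, one_mul,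
      zero_mul, Finset.sum_ite_eq', Finset.mem_univ, if_true, Pi.zero_apply] using this
  rw [hl] at h1
  have hl0 : l = 0 := by
    simpa [hj0] using h1
  apply hx0
  rw [hl, hl0, zero_smul]

end Cramer

end Fermat.Agent.S27.Alt
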