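import Fermat.Agent.S27.Alt.Setup

/-!
# S27 / alternative core: local injectivity of the chart
-/

set_option autoImplicit false

open AlgebraicCurve WithZero Module Filter Topology

namespace Fermat.Agent.S27.Alt

variable {F : Type*} [Field F] [Algebra ℂ F] [IsFF ℂ F]

/-- (C'-S4) local injectivity of `cmap`. -/
theorem exists_injOn_cmap {g : ℕ} (hg : genusFF ℂ F = g) {P : Fin g → Place ℂ F}
    (hP : IsNS P) (CP : ∀ i, Chart (P i)) :
    ∃ U ∈ 𝓝 (0 : Fin g → ℂ), Set.InjOn (cmap CP) U := by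
  classical
  obtain ⟨Q, hQ, hQS⟩ := exists_isNS hg (Set.range P) (Set.finite_range P)
  have hC : ∀ w : Place ℂ F, Nonempty (Chart w) := fun w => by
    obtain ⟨t, ht⟩ := exists_unif w
    obtain ⟨C, -⟩ := exists_chart w t ht
    exact ⟨C⟩
  let CQ : ∀ i, Chart (Q i) := fun i => (hC _).some
  have hPQ : ∀ i j, P i ≠ Q j := fun i j h => hQS j ⟨i, h⟩
  set B : Divisor ℂ F := sumDiv P + sumDiv Q with hB
  have hinj : Function.Injective (Sum.elim P Q) := by
    rintro (i | i) (j | j) h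
    · exact congrArg _ (hP.inj h)
    · exact absurd h (hPQ i j)
    · exact absurd h.symm (hPQ j i)
    · exact congrArg _ (hQ.inj h)
  have hell : finrank ℂ (riemannRochSpace B) = Fintype.card (Fin g) + 1 := by
    have h1 := finrank_L_of_isNS_le hg hP (D := B)
      (by rw [hB]; exact le_add_of_nonneg_right (NS.sumDiv_nonneg Q))
    have h2 : Divisor.degree B = (g : ℤ) + g := by
      rw [hB, map_add, degree_sumDiv, degree_sumDiv, Fintype.card_fin]
    rw [h2] at h1
    rw [Fintype.card_fin]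
    omega
  have hBP : B - sumDiv P = sumDiv Q := by rw [hB]; abel
  have hBQ : B - sumDiv Q = sumDiv P := by rw [hB]; abel
  obtain ⟨σ, hσc, hσ0, hσ⟩ := residuation B P Q hinj (LinEq.refl _) hell
    (by rw [hBP]; exact hQ.l_eq) CP CQ
  have hsc := eventually_finrank_L_sub B Q hQ.inj hell (by rw [hBQ]; exact hP.l_eq) CQ
  have tσ : Tendsto σ (𝓝 0) (𝓝 0) := by
    have := hσc.continuousAt.tendsto
    rwa [hσ0] at this
  have hl : ∀ᶠ z in 𝓝 (0 : Fin g → ℂ), finrank ℂ (riemannRochSpace (sumDiv (mv CP z))) = 1 := by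
    filter_upwards [hσ, tσ.eventually hsc] with z h1 h2
    rw [← h2]
    apply finrank_L_of_linEq
    unfold LinEq at h1 ⊢
    have : sumDiv (mv CP z) - (B - sumDiv (mv CQ (σ z))) =
        sumDiv (mv CP z) + sumDiv (mv CQ (σ z)) - B := by abel
    rw [this]
    exact h1
  -- separation of the points
  have hG : ∀ᶠ p in 𝓝 ((0 : ℂ), (0 : ℂ)),
      (∀ i j, i ≠ j → (CP i).pt p.1 ≠ (CP j).pt p.2) ∧
        ∀ i, (CP i).pt p.1 = (CP i).pt p.2 → p.1 = p.2 := by
    refine Filter.Eventually.and ?_ ?_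
    · rw [Filter.eventually_all]
      intro i
      rw [Filter.eventually_all]
      intro j
      by_cases hij : i = j
      · exact Filter.Eventually.of_forall fun p h => absurd hij h
      · exact ((CP i).eventually_ne (fun h => hij (hP.inj h)) (CP j)).mono fun p hp _ => hp
    · rw [Filter.eventually_all]
      intro i
      exact (CP i).eventually_inj
  rw [nhds_prod_eq, Filter.eventually_prod_iff] at hG
  obtain ⟨pa, hpa, pb, hpb, hab⟩ := hG
  have hW : ∀ᶠ z in 𝓝 (0 : Fin g → ℂ), ∀ i, pa (z i) ∧ pb (z i) := by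
    rw [Filter.eventually_all]
    intro i
    have : Tendsto (fun z : Fin g → ℂ => z i) (𝓝 0) (𝓝 0) :=
      (continuous_apply i).tendsto' _ _ rfl
    exact this.eventually (hpa.and hpb)
  refine ⟨_, hl.and hW, ?_⟩
  rintro z ⟨hz1, hz2⟩ z' ⟨-, hz2'⟩ hzz'
  have hdeg : ∀ w : Fin g → ℂ, Divisor.degree (sumDiv (mv CP w) - sumDiv P) = 0 := by
    intro w
    rw [map_sub, degree_sumDiv, degree_sumDiv, sub_self]
  unfold cmap at hzz'
  have hzz2 : LinEq (sumDiv (mv CP z) - sumDiv P) (sumDiv (mv CP z') - sumDiv P) :=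
    (pc_eq_iff (hdeg z) (hdeg z')).1 hzz'
  have hlin : LinEq (sumDiv (mv CP z')) (sumDiv (mv CP z)) := by
    have := LinEq.symm hzz2
    unfold LinEq at this ⊢
    rwa [sub_sub_sub_cancel_right] at this
  have heq := eq_of_linEq_of_finrank_eq_one (NS.sumDiv_nonneg _) (NS.sumDiv_nonneg _) hlin hz1
  funext i
  have h1 : 1 ≤ sumDiv (mv CP z') (mv CP z i) := by
    rw [heq]
    exact NS.one_le_sumDiv_apply _ i
  have h2 : ∃ j, mv CP z' j = mv CP z i := by
    by_contra hcon
    push Not at hcon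
    rw [NS.sumDiv_apply_of_ne _ hcon] at h1
    omega
  obtain ⟨j, hj⟩ := h2
  have h3 := hab (hz2 i).1 (hz2' j).2
  by_cases hij : i = j
  · subst hij
    exact h3.2 i hj.symm
  · exact absurd hj.symm (h3.1 i j hij)

end Fermat.Agent.S27.Alt
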