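import Fermat.Agent.S27.Alt.Two

/-!
# S27 / alternative core: a moving point
-/

set_option autoImplicit false

open AlgebraicCurve WithZero Module Filter Topology

namespace Fermat.Agent.S27.Alt

variable {F : Type*} [Field F] [Algebra ℂ F] [IsFF ℂ F]

/-- (C'-S3) a moving point: `[v(z) - v] = [P(x) - P]` with `x → 0`, for `v` outside `P`. -/
theorem exists_resid_point {g : ℕ} (hg : genusFF ℂ F = g) {P : Fin g → Place ℂ F}
    (hP : IsNS P) (CP : ∀ i, Chart (P i)) {v : Place ℂ F} (hv : ∀ i, P i ≠ v) (Cv : Chart v) :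
    ∃ ξ : ℂ → (Fin g → ℂ), ContinuousAt ξ 0 ∧ ξ 0 = 0 ∧
      ∀ᶠ z in 𝓝 (0 : ℂ),
        cmap CP (ξ z) = pc (Finsupp.single (Cv.pt z) 1 - Finsupp.single v 1) := by
  obtain ⟨Q, hQ, hQS⟩ := exists_isNS hg (Set.range P ∪ {v})
    ((Set.finite_range P).union (Set.finite_singleton v))
  have hC : ∀ w : Place ℂ F, Nonempty (Chart w) := fun w => by
    obtain ⟨t, ht⟩ := exists_unif w
    obtain ⟨C, -⟩ := exists_chart w t ht
    exact ⟨C⟩
  let CQ : ∀ i, Chart (Q i) := fun i => (hC _).some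
  let R : Unit → Place ℂ F := fun _ => v
  let CR : ∀ i : Unit, Chart (R i) := fun _ => Cv
  have hsR : ∀ w : Unit → Place ℂ F, sumDiv w = Finsupp.single (w ()) 1 := by
    intro w
    simp [sumDiv]
  have hell : finrank ℂ (riemannRochSpace (sumDiv R + sumDiv Q)) = Fintype.card Unit + 1 := by
    rw [hsR, add_comm, hQ.finrank_add hg]
    simp
  have hR1 : finrank ℂ (riemannRochSpace (sumDiv R + sumDiv Q - sumDiv R)) = 1 := by
    rw [add_sub_cancel_left]
    exact hQ.l_eq
  have hinj : Function.Injective (Sum.elim R Q) := by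
    refine injective_sumElim (fun _ _ _ => rfl) hQ.inj ?_
    intro _ j h
    exact hQS j (Or.inr h.symm)
  obtain ⟨σ, h1, h2, h3⟩ := residuation (sumDiv R + sumDiv Q) R Q hinj (LinEq.refl _) hell hR1 CR CQ
  obtain ⟨σ', h1', h2', h3'⟩ := exists_resid_two hg hQ hP
    (fun i j h => hQS i (Or.inl ⟨j, h.symm⟩)) CQ CP
  let e : ℂ → (Unit → ℂ) := fun z _ => z
  have he : Continuous e := continuous_pi fun _ => continuous_id
  have he0 : e 0 = 0 := rfl
  have t0 : Tendsto e (𝓝 0) (𝓝 0) := by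
    have := he.tendsto 0
    rwa [he0] at this
  have t1 : Tendsto σ (𝓝 0) (𝓝 0) := by
    have := h1.continuousAt.tendsto
    rwa [h2] at this
  have t2 : Tendsto σ' (𝓝 0) (𝓝 0) := by
    have := h1'.continuousAt.tendsto
    rwa [h2'] at this
  refine ⟨fun z => σ' (σ (e z)), ?_, ?_, ?_⟩
  · have : Tendsto (fun z => σ' (σ (e z))) (𝓝 0) (𝓝 0) := t2.comp (t1.comp t0)
    unfold ContinuousAt
    show Tendsto (fun z => σ' (σ (e z))) (𝓝 0) (𝓝 (σ' (σ (e 0))))
    rw [he0, h2, h2']
    exact this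
  · show σ' (σ (e 0)) = 0
    rw [he0, h2, h2']
  · filter_upwards [t0.eventually h3, (t1.comp t0).eventually h3'] with z hz hz'
    simp only [Function.comp] at hz'
    have hd : Divisor.degree (Finsupp.single (Cv.pt z) (1 : ℤ) - Finsupp.single v (1 : ℤ)) = 0 := by
      rw [map_sub, degree_single, degree_single, sub_self]
    have hz'' : cmap CP (σ' (σ (e z))) = - cmap CQ (σ (e z)) := by rw [hz', neg_neg]
    rw [hz'']
    unfold cmap
    rw [← pc_neg (degree_mv_sub CQ _), pc_eq_iff (by rw [map_neg, degree_mv_sub CQ, neg_zero]) hd]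
    have hz2 := LinEq.symm hz
    rw [hsR, hsR] at hz2
    unfold LinEq at hz2 ⊢
    convert hz2 using 1
    show _ = Finsupp.single v 1 + sumDiv Q - (Finsupp.single (Cv.pt z) 1 + sumDiv (mv CQ (σ (e z))))
    abel

end Fermat.Agent.S27.Alt
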