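import Fermat.Agent.S27.Alt.ChartLemmas
import Fermat.Agent.S27.Alt.IFT

/-!
# S27 / alternative core: the residuation lemma
-/

set_option autoImplicit false

open AlgebraicCurve WithZero Module Filter Topology

namespace Fermat.Agent.S27.Alt

variable {F : Type*} [Field F] [Algebra ℂ F] [IsFF ℂ F]

/-! ### small auxiliary facts -/

/-- values of linear combinations of regular functions. -/
theorem val_sum_smul {J : Type*} (s : Finset J) (v : Place ℂ F) (c : J → ℂ) (f : J → F)
    (hf : ∀ j ∈ s, v.adicValuation (f j) ≤ 1) :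
    v.adicValuation (∑ j ∈ s, c j • f j) ≤ 1 ∧
      val v (∑ j ∈ s, c j • f j) = ∑ j ∈ s, c j * val v (f j) := by
  classical
  induction s using Finset.induction_on with
  | empty =>
    refine ⟨by simp, ?_⟩
    have := val_algebraMap v (0 : ℂ)
    simpa using this
  | insert a s ha ih =>
    obtain ⟨h1, h2⟩ := ih fun j hj => hf j (Finset.mem_insert_of_mem hj)
    have ha1 : v.adicValuation (f a) ≤ 1 := hf a (Finset.mem_insert_self a s)
    have h3 : v.adicValuation (c a • f a) ≤ 1 := by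
      rw [Algebra.smul_def, map_mul]
      exact mul_le_one' (v.adicValuation_algebraMap_le_one _) ha1
    have h4 : val v (c a • f a) = c a * val v (f a) := by
      rw [Algebra.smul_def, val_mul v (v.adicValuation_algebraMap_le_one _) ha1, val_algebraMap]
    rw [Finset.sum_insert ha, Finset.sum_insert ha]
    exact ⟨(Valuation.map_add _ _ _).trans (max_le h3 h1), by rw [val_add v h3 h1, h4, h2]⟩

omit [IsFF ℂ F] in
theorem sumDiv_apply_self {ι : Type*} [Fintype ι] {Q : ι → Place ℂ F}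
    (hQ : Function.Injective Q) (i : ι) : sumDiv Q (Q i) = 1 := by
  classical
  unfold sumDiv
  rw [Finsupp.finsetSum_apply, Finset.sum_eq_single i]
  · simp
  · intro j _ hj
    exact Finsupp.single_eq_of_ne (fun h => hj (hQ h.symm))
  · intro h
    exact absurd (Finset.mem_univ i) h

omit [IsFF ℂ F] in
theorem sumDiv_apply_of_ne {ι : Type*} [Fintype ι] {Q : ι → Place ℂ F} {v : Place ℂ F}
    (h : ∀ i, Q i ≠ v) : sumDiv Q v = 0 := by
  classical
  unfold sumDiv
  rw [Finsupp.finsetSum_apply]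
  exact Finset.sum_eq_zero fun j _ => Finsupp.single_eq_of_ne (fun h' => h j h'.symm)

omit [IsFF ℂ F] in
theorem sumDiv_apply_nonneg {ι : Type*} [Fintype ι] (Q : ι → Place ℂ F) (v : Place ℂ F) :
    0 ≤ sumDiv Q v := by
  classical
  unfold sumDiv
  rw [Finsupp.finsetSum_apply]
  refine Finset.sum_nonneg fun j _ => ?_
  rw [Finsupp.single_apply]
  split_ifs <;> simp

omit [IsFF ℂ F] in
theorem sumDiv_sumElim {ι κ : Type*} [Fintype ι] [Fintype κ] (P : ι → Place ℂ F)
    (Q : κ → Place ℂ F) : sumDiv (Sum.elim P Q) = sumDiv P + sumDiv Q := by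
  unfold sumDiv
  rw [Fintype.sum_sum_type]
  simp

theorem degree_sumDiv {ι : Type*} [Fintype ι] (Q : ι → Place ℂ F) :
    Divisor.degree (sumDiv Q) = Fintype.card ι := by
  unfold sumDiv
  rw [map_sum]
  simp only [Alt.degree_single]
  simp

/-- moving points stay distinct and avoid a given finite set. -/
theorem eventually_mv_good {ι : Type*} [Fintype ι] {R : ι → Place ℂ F}
    (hinj : Function.Injective R) (C : ∀ i, Chart (R i)) (T : Set (Place ℂ F)) (hT : T.Finite)
    (hRT : ∀ i, R i ∉ T) :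
    ∀ᶠ w in 𝓝 (0 : ι → ℂ), Function.Injective (mv C w) ∧ ∀ i, mv C w i ∉ T := by
  have h1 : ∀ᶠ w in 𝓝 (0 : ι → ℂ), ∀ i i', i ≠ i' → mv C w i ≠ mv C w i' := by
    rw [eventually_all]
    intro i
    rw [eventually_all]
    intro i'
    by_cases h : i = i'
    · exact Eventually.of_forall fun _ h' => absurd h h'
    · have h2 := Chart.eventually_ne (hinj.ne h) (C i) (C i')
      have h3 : Tendsto (fun w : ι → ℂ => (w i, w i')) (𝓝 0) (𝓝 ((0 : ℂ), (0 : ℂ))) :=
        ((continuous_apply i).prodMk (continuous_apply i')).tendsto 0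
      exact (h3.eventually h2).mono fun w hw _ => hw
  have h2 : ∀ᶠ w in 𝓝 (0 : ι → ℂ), ∀ i, mv C w i ∉ T := by
    rw [eventually_all]
    intro i
    have h3 : Tendsto (fun w : ι → ℂ => w i) (𝓝 0) (𝓝 (0 : ℂ)) :=
      (continuous_apply i).tendsto 0
    exact h3.eventually ((C i).eventually_notMem T hT (hRT i))
  filter_upwards [h1, h2] with w hw1 hw2
  refine ⟨fun i i' h => ?_, hw2⟩
  by_contra hne
  exact hw1 i i' hne h

/-! ### the linear algebra of a fixed configuration -/

section Config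

variable {ι : Type} [Fintype ι] {B : Divisor ℂ F}
  (bas : Basis (Option ι) ℂ (riemannRochSpace B)) {Q : ι → Place ℂ F}

theorem sum_smul_mem_L (x : Option ι → ℂ) :
    ∑ j, x j • (bas j : F) ∈ riemannRochSpace B :=
  Submodule.sum_mem _ fun j _ => Submodule.smul_mem _ _ (bas j).2

theorem val_sum_bas (hBQ : ∀ i, B (Q i) = 0) (x : Option ι → ℂ) (i : ι) :
    val (Q i) (∑ j, x j • (bas j : F)) = ∑ j, val (Q i) (bas j : F) * x j := by
  rw [(val_sum_smul Finset.univ (Q i) x (fun j => (bas j : F))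
    (fun j _ => adic_le_one_of_mem_L (bas j).2 (hBQ i))).2]
  exact Finset.sum_congr rfl fun j _ => mul_comm _ _

theorem sum_smul_mem_iff (hQ : Function.Injective Q) (hBQ : ∀ i, B (Q i) = 0)
    (x : Option ι → ℂ) :
    ∑ j, x j • (bas j : F) ∈ riemannRochSpace (B - sumDiv Q) ↔
      ∀ i, ∑ j, val (Q i) (bas j : F) * x j = 0 := by
  rw [mem_L_sub_sumDiv_iff hQ hBQ]
  constructor
  · rintro ⟨_, h⟩ i
    rw [← val_sum_bas bas hBQ]
    exact h i
  · intro h
    refine ⟨sum_smul_mem_L bas x, fun i => ?_⟩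
    rw [val_sum_bas bas hBQ]
    exact h i

theorem eq_sum_equivFun (f : riemannRochSpace B) :
    (f : F) = ∑ j, bas.equivFun f j • (bas j : F) := by
  have h := congrArg (Submodule.subtype _) (bas.sum_equivFun f)
  rw [map_sum] at h
  simpa only [map_smul, Submodule.subtype_apply] using h.symm

theorem sum_smul_ne_zero {x : Option ι → ℂ} (hx : x ≠ 0) : ∑ j, x j • (bas j : F) ≠ 0 := by
  intro h
  apply hx
  have h1 : ∑ j, x j • bas j = 0 := by
    apply Subtype.ext
    simpa using h
  have h2 := Fintype.linearIndependent_iff.1 bas.linearIndependent x h1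
  exact funext h2

open Classical in
/-- if some maximal minor of the evaluation matrix is nonzero, then `l(B - ∑ Q) = 1`. -/
theorem finrank_eq_one_of_cofVec (hQ : Function.Injective Q) (hBQ : ∀ i, B (Q i) = 0)
    {j0 : Option ι} (h : cofVec (fun i j => val (Q i) (bas j : F)) j0 ≠ 0) :
    finrank ℂ (riemannRochSpace (B - sumDiv Q)) = 1 := by
  set A : Matrix ι (Option ι) ℂ := fun i j => val (Q i) (bas j : F) with hA
  have hmem : ∑ j, cofVec A j • (bas j : F) ∈ riemannRochSpace (B - sumDiv Q) :=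
    (sum_smul_mem_iff bas hQ hBQ _).2 fun i => sum_mul_cofVec A i
  rw [finrank_eq_one_iff']
  refine ⟨⟨_, hmem⟩, ?_, ?_⟩
  · intro h0
    have h1 : ∑ j, cofVec A j • (bas j : F) = 0 := congrArg Subtype.val h0
    exact sum_smul_ne_zero bas (fun h2 => h (congrFun h2 j0)) h1
  · intro w
    have hw : (w : F) ∈ riemannRochSpace B := ((mem_L_sub_sumDiv_iff hQ hBQ).1 w.2).1
    set x := bas.equivFun ⟨w, hw⟩ with hx
    have hwx : (w : F) = ∑ j, x j • (bas j : F) := eq_sum_equivFun bas ⟨w, hw⟩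
    have hker : ∀ i, ∑ j, A i j * x j = 0 := by
      apply (sum_smul_mem_iff bas hQ hBQ x).1
      rw [← hwx]
      exact w.2
    have hxc := eq_smul_cofVec A h hker
    refine ⟨x j0 / cofVec A j0, Subtype.ext ?_⟩
    show (x j0 / cofVec A j0) • ∑ j, cofVec A j • (bas j : F) = w
    rw [hwx, Finset.smul_sum]
    refine Finset.sum_congr rfl fun j _ => ?_
    rw [smul_smul]
    congr 1
    exact (congrFun hxc j).symm

open Classical in
/-- conversely `l(B - ∑ Q) = 1` forces a nonzero maximal minor. -/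
theorem exists_cofVec_of_finrank (hQ : Function.Injective Q) (hBQ : ∀ i, B (Q i) = 0)
    (h : finrank ℂ (riemannRochSpace (B - sumDiv Q)) = 1) :
    ∃ j0, cofVec (fun i j => val (Q i) (bas j : F)) j0 ≠ 0 := by
  obtain ⟨v0, hv0, hspan⟩ := finrank_eq_one_iff'.1 h
  have hv : (v0 : F) ∈ riemannRochSpace B := ((mem_L_sub_sumDiv_iff hQ hBQ).1 v0.2).1
  set c := bas.equivFun ⟨v0, hv⟩ with hc
  have hvc : (v0 : F) = ∑ j, c j • (bas j : F) := eq_sum_equivFun bas ⟨v0, hv⟩
  apply exists_cofVec_ne_zero _ (c := c)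
  · intro h0
    apply hv0
    apply Subtype.ext
    rw [hvc, h0]
    simp
  · intro x hx
    have hmem := (sum_smul_mem_iff bas hQ hBQ x).2 hx
    obtain ⟨l, hl⟩ := hspan ⟨_, hmem⟩
    refine ⟨l, ?_⟩
    have h1 : l • (v0 : F) = ∑ j, x j • (bas j : F) := congrArg Subtype.val hl
    have h2 : ∑ j, (x - l • c) j • (bas j : F) = 0 := by
      simp only [Pi.sub_apply, Pi.smul_apply, smul_eq_mul, sub_smul, Finset.sum_sub_distrib]
      rw [← h1, hvc, Finset.smul_sum, sub_eq_zero]
      exact Finset.sum_congr rfl fun j _ => by rw [smul_smul]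
    by_contra hne
    exact sum_smul_ne_zero bas (sub_ne_zero.2 hne) h2

end Config

/-! ### the moving section -/

/-- the section of `L(B)` through the moving points. -/
theorem exists_section {ι : Type} [Fintype ι]
    (B : Divisor ℂ F) (R : ι → Place ℂ F) (hinj : Function.Injective R)
    (hBR : ∀ i, B (R i) = 0)
    (hell : finrank ℂ (riemannRochSpace B) = Fintype.card ι + 1)
    (hR : finrank ℂ (riemannRochSpace (B - sumDiv R)) = 1) (CR : ∀ i, Chart (R i)) :
    ∃ (b : Option ι → F) (cof : (ι → ℂ) → Option ι → ℂ),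
      (∀ j, b j ∈ riemannRochSpace B) ∧
      (∀ j, ContDiffAt ℂ 2 (fun z => cof z j) 0) ∧
      ∀ᶠ z in 𝓝 (0 : ι → ℂ), ∑ j, cof z j • b j ≠ 0 ∧
        (∀ i, val (mv CR z i) (∑ j, cof z j • b j) = 0) ∧
        finrank ℂ (riemannRochSpace (B - sumDiv (mv CR z))) = 1 := by
  classical
  have hcard : Fintype.card (Option ι) = Fintype.card ι + 1 := Fintype.card_option
  let bas : Basis (Option ι) ℂ (riemannRochSpace B) :=
    (Module.finBasisOfFinrankEq ℂ (riemannRochSpace B) hell).reindex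
      (Fintype.equivFinOfCardEq hcard).symm
  have hreg : ∀ i j, (R i).adicValuation (bas j : F) ≤ 1 := fun i j =>
    adic_le_one_of_mem_L (bas j).2 (hBR i)
  choose a ha_an ha_ev using fun i j => (CR i).analytic (bas j : F) (hreg i j)
  let A : (ι → ℂ) → Matrix ι (Option ι) ℂ := fun z i j => a i j (z i)
  -- the matrix `A z` is the evaluation matrix, eventually
  have hE1 : ∀ᶠ z in 𝓝 (0 : ι → ℂ), ∀ i j, val (mv CR z i) (bas j : F) = a i j (z i) := by
    rw [eventually_all]
    intro i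
    rw [eventually_all]
    intro j
    have h3 : Tendsto (fun w : ι → ℂ => w i) (𝓝 0) (𝓝 (0 : ℂ)) :=
      (continuous_apply i).tendsto 0
    exact (h3.eventually (ha_ev i j)).mono fun z hz => hz.2
  have hgood := eventually_mv_good hinj CR (B.support : Set (Place ℂ F)) B.support.finite_toSet
    (fun i => by simpa using hBR i)
  have hcd : ∀ j, ContDiffAt ℂ 2 (fun z => cofVec (A z) j) 0 := by
    intro j
    unfold cofVec
    apply contDiffAt_det
    intro o j'
    cases o with
    | none => exact contDiffAt_const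
    | some i =>
      have h1 : ContDiffAt ℂ 2 (a i j') ((fun z : ι → ℂ => z i) 0) := (ha_an i j').contDiffAt
      show ContDiffAt ℂ 2 (fun z : ι → ℂ => a i j' (z i)) 0
      exact ContDiffAt.comp (0 : ι → ℂ) h1 (contDiff_apply ℂ ℂ i).contDiffAt
  -- nonvanishing of a minor at `0`
  have hA0 : A 0 = fun i j => val (R i) (bas j : F) := by
    funext i j
    have := (ha_ev i j).self_of_nhds.2
    rw [(CR i).pt_zero] at this
    exact this.symm
  obtain ⟨j0, hj0⟩ := exists_cofVec_of_finrank bas hinj hBR hR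
  rw [← hA0] at hj0
  have hne : ∀ᶠ z in 𝓝 (0 : ι → ℂ), cofVec (A z) j0 ≠ 0 :=
    (hcd j0).continuousAt.eventually_ne hj0
  refine ⟨fun j => (bas j : F), fun z => cofVec (A z), fun j => (bas j).2, hcd, ?_⟩
  filter_upwards [hE1, hgood, hne] with z hz1 hz2 hz3
  have hAz : A z = fun i j => val (mv CR z i) (bas j : F) := by
    funext i j
    exact (hz1 i j).symm
  have hBz : ∀ i, B (mv CR z i) = 0 := fun i => by simpa using hz2.2 i
  refine ⟨sum_smul_ne_zero bas (fun h2 => hz3 (congrFun h2 j0)), fun i => ?_, ?_⟩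
  · rw [val_sum_bas bas hBz]
    have := sum_mul_cofVec (A z) i
    rw [hAz] at this ⊢
    exact this
  · rw [hAz] at hz3
    exact finrank_eq_one_of_cofVec bas hz2.1 hBz hz3

/-! ### the residuation lemma when `B` avoids the points -/

theorem residuation_aux {ι κ : Type} [Fintype ι] [Fintype κ]
    (B : Divisor ℂ F) (R : ι → Place ℂ F) (S : κ → Place ℂ F)
    (hinj : Function.Injective (Sum.elim R S))
    (hBR : ∀ i, B (R i) = 0) (hBS : ∀ k, B (S k) = 0)
    (hB : LinEq (sumDiv R + sumDiv S) B)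
    (hell : finrank ℂ (riemannRochSpace B) = Fintype.card ι + 1)
    (hR : finrank ℂ (riemannRochSpace (B - sumDiv R)) = 1)
    (CR : ∀ i, Chart (R i)) (CS : ∀ k, Chart (S k)) :
    ∃ σ : (ι → ℂ) → (κ → ℂ), ContDiffAt ℂ 2 σ 0 ∧ σ 0 = 0 ∧
      ∀ᶠ z in 𝓝 (0 : ι → ℂ), LinEq (sumDiv (mv CR z) + sumDiv (mv CS (σ z))) B := by
  classical
  have hinjR : Function.Injective R := fun i i' h => by
    have := @hinj (Sum.inl i) (Sum.inl i') h
    simpa using this
  have hinjS : Function.Injective S := fun k k' h => by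
    have := @hinj (Sum.inr k) (Sum.inr k') h
    simpa using this
  have hRS : ∀ i k, R i ≠ S k := fun i k h => by
    have := @hinj (Sum.inl i) (Sum.inr k) h
    simp at this
  obtain ⟨b, cof, hb, hcof, hev⟩ := exists_section B R hinjR hBR hell hR CR
  set ψ : (ι → ℂ) → F := fun z => ∑ j, cof z j • b j with hψ
  have hψL : ∀ z, ψ z ∈ riemannRochSpace B := fun z =>
    Submodule.sum_mem _ fun j _ => Submodule.smul_mem _ _ (hb j)
  obtain ⟨hψ0, hψR, -⟩ := hev.self_of_nhds
  rw [mv_zero] at hψR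
  -- `ψ 0` has a simple zero at every `S k`
  have hψS : ∀ k, (S k).adicValuation (ψ 0) = exp (-1 : ℤ) := by
    intro k
    obtain ⟨φ, hφ0, hφ⟩ := mem_principal_iff.1 hB
    have hφord : ∀ v : Place ℂ F, v.ord φ = sumDiv R v + sumDiv S v - B v := by
      intro v
      rw [← divOf_apply (K := ℂ), ← hφ]
      simp
    have hφmem : φ ∈ riemannRochSpace (B - sumDiv R) := by
      rw [mem_riemannRochSpace_iff]
      intro v
      right
      rw [hφord]
      have := sumDiv_apply_nonneg S v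
      simp only [Finsupp.coe_sub, Pi.sub_apply]
      omega
    have hψmem : ψ 0 ∈ riemannRochSpace (B - sumDiv R) :=
      (mem_L_sub_sumDiv_iff hinjR hBR).2 ⟨hψL 0, hψR⟩
    have hφne : (⟨φ, hφmem⟩ : riemannRochSpace (B - sumDiv R)) ≠ 0 := fun h =>
      hφ0 (congrArg Subtype.val h)
    obtain ⟨c, hc⟩ := (finrank_eq_one_iff_of_nonzero' _ hφne).1 hR ⟨ψ 0, hψmem⟩
    have hc' : c • φ = ψ 0 := congrArg Subtype.val hc
    have hc0 : c ≠ 0 := by
      rintro rfl
      rw [zero_smul] at hc'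
      exact hψ0 hc'.symm
    rw [← hc', Algebra.smul_def, map_mul, adic_algebraMap _ hc0, one_mul,
      (S k).adicValuation_eq_exp_neg_ord hφ0, hφord, sumDiv_apply_self hinjS,
      sumDiv_apply_of_ne (fun i => hRS i k), hBS k]
    simp
  -- analytic representatives at the `S k`
  have hregS : ∀ k j, (S k).adicValuation (b j) ≤ 1 := fun k j =>
    adic_le_one_of_mem_L (hb j) (hBS k)
  choose a' ha'_an ha'_ev using fun k j => (CS k).analytic (b j) (hregS k j)
  let Ψ : κ → (ι → ℂ) × ℂ → ℂ := fun k p => ∑ j, cof p.1 j * a' k j p.2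
  have hE2 : ∀ k, ∀ᶠ u in 𝓝 (0 : ℂ), ∀ z, val ((CS k).pt u) (ψ z) = Ψ k (z, u) := by
    intro k
    have h1 : ∀ᶠ u in 𝓝 (0 : ℂ), ∀ j, ((CS k).pt u).adicValuation (b j) ≤ 1 ∧
        val ((CS k).pt u) (b j) = a' k j u := by
      rw [eventually_all]
      exact fun j => ha'_ev k j
    filter_upwards [h1] with u hu z
    rw [hψ]
    simp only
    rw [(val_sum_smul Finset.univ ((CS k).pt u) (cof z) b (fun j _ => (hu j).1)).2]
    exact Finset.sum_congr rfl fun j _ => by rw [(hu j).2]
  have hΨcd : ∀ k, ContDiffAt ℂ 2 (Ψ k) (0, 0) := by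
    intro k
    refine ContDiffAt.sum fun j _ => ?_
    have h1 : ContDiffAt ℂ 2 (fun p : (ι → ℂ) × ℂ => cof p.1 j) (0, 0) :=
      ContDiffAt.comp (g := fun z => cof z j) (f := Prod.fst) ((0 : ι → ℂ), (0 : ℂ)) (hcof j)
        contDiffAt_fst
    have h2 : ContDiffAt ℂ 2 (fun p : (ι → ℂ) × ℂ => a' k j p.2) (0, 0) :=
      ContDiffAt.comp (g := a' k j) (f := Prod.snd) ((0 : ι → ℂ), (0 : ℂ))
        (ha'_an k j).contDiffAt contDiffAt_snd
    exact h1.mul h2
  -- the derivative in the last variable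
  have hder : ∀ k, ∃ d : ℂ, d ≠ 0 ∧ Ψ k (0, 0) = 0 ∧ HasDerivAt (fun u => Ψ k (0, u)) d 0 := by
    intro k
    set t := (CS k).t with ht
    have htv : (S k).adicValuation t = exp (-1 : ℤ) := (CS k).unif
    have ht0 : t ≠ 0 := by
      rintro h0
      rw [h0, map_zero] at htv
      exact exp_ne_zero htv.symm
    have htle : (S k).adicValuation t ≤ 1 := by
      rw [htv, ← exp_zero, exp_le_exp]
      norm_num
    set w := ψ 0 / t with hw
    have hwv : (S k).adicValuation w = 1 := by
      rw [hw, map_div₀, hψS k, htv]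
      exact div_self (by simp)
    obtain ⟨hw_f, hw_an, hw_ev⟩ := (CS k).analytic w hwv.le
    obtain ⟨ht_f, -, ht_ev⟩ := (CS k).analytic t htle
    have hEq : ∀ᶠ u in 𝓝 (0 : ℂ), Ψ k (0, u) = u * hw_f u := by
      filter_upwards [hE2 k, hw_ev, ht_ev, (CS k).val_t] with u h1 h2 h3 h4
      rw [← h1 0]
      have : ψ 0 = t * w := by
        rw [hw]
        field_simp
      rw [this, val_mul _ h3.1 h2.1, h4, h2.2]
    have hw0 : hw_f 0 ≠ 0 := by
      have h1 := hw_ev.self_of_nhds.2
      rw [(CS k).pt_zero] at h1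
      rw [← h1]
      intro h2
      have h3 := (val_eq_zero_iff (S k) hwv.le).1 h2
      rw [hwv] at h3
      exact lt_irrefl _ h3
    refine ⟨hw_f 0, hw0, ?_, ?_⟩
    · rw [hEq.self_of_nhds, zero_mul]
    · have h1 : HasDerivAt (fun u : ℂ => u * hw_f u) (1 * hw_f 0 + 0 * deriv hw_f 0) 0 :=
        (hasDerivAt_id (0 : ℂ)).mul hw_an.differentiableAt.hasDerivAt
      have h2 : HasDerivAt (fun u : ℂ => u * hw_f u) (hw_f 0) 0 := by
        simpa using h1
      exact h2.congr_of_eventuallyEq hEq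
  choose d hd0 hΨ0 hΨd using hder
  choose σk hσcd hσ0 hσev using fun k =>
    exists_implicit (Ψ k) (hΨcd k) (hΨ0 k) (hd0 k) (hΨd k)
  refine ⟨fun z k => σk k z, contDiffAt_pi.2 hσcd, funext hσ0, ?_⟩
  -- continuity
  have hσt : ∀ k, Tendsto (σk k) (𝓝 0) (𝓝 (0 : ℂ)) := fun k => by
    have := (hσcd k).continuousAt.tendsto
    rwa [hσ0 k] at this
  -- the joint family of charts
  let C : ∀ s : ι ⊕ κ, Chart (Sum.elim R S s) := fun s =>
    match s with
    | Sum.inl i => CR i
    | Sum.inr k => CS k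
  have hgood := eventually_mv_good hinj C (B.support : Set (Place ℂ F)) B.support.finite_toSet
    (fun s => by
      cases s with
      | inl i => simpa using hBR i
      | inr k => simpa using hBS k)
  have hg : Tendsto (fun z : ι → ℂ => (Sum.elim z (fun k => σk k z) : ι ⊕ κ → ℂ)) (𝓝 0)
      (𝓝 0) := by
    rw [tendsto_pi_nhds]
    intro s
    cases s with
    | inl i => exact (continuous_apply i).tendsto 0
    | inr k => exact hσt k
  have hmv : ∀ z : ι → ℂ, mv C (Sum.elim z (fun k => σk k z)) =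
      Sum.elim (mv CR z) (mv CS (fun k => σk k z)) := by
    intro z
    funext s
    cases s <;> rfl
  have hE3 : ∀ᶠ z in 𝓝 (0 : ι → ℂ), ∀ k, val ((CS k).pt (σk k z)) (ψ z) = Ψ k (z, σk k z) := by
    rw [eventually_all]
    intro k
    exact ((hσt k).eventually (hE2 k)).mono fun z hz => hz z
  have hE4 : ∀ᶠ z in 𝓝 (0 : ι → ℂ), ∀ k, Ψ k (z, σk k z) = 0 := by
    rw [eventually_all]
    exact hσev
  have hdeg : Divisor.degree B = Fintype.card (ι ⊕ κ) := by
    rw [← LinEq.degree_eq hB, map_add, degree_sumDiv, degree_sumDiv, Fintype.card_sum]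
    push_cast
    ring
  filter_upwards [hev, hg.eventually hgood, hE3, hE4] with z hz1 hz2 hz3 hz4
  rw [hmv] at hz2
  rw [← sumDiv_sumElim]
  refine linEq_of_zeros hz2.1 (fun s => by simpa using hz2.2 s) hdeg hz1.1 (hψL z) ?_
  intro s
  cases s with
  | inl i => exact hz1.2.1 i
  | inr k =>
    show val ((CS k).pt (σk k z)) (ψ z) = 0
    rw [hz3 k, hz4 k]

/-! ### the general statements -/

/-- (C'-RL) **residuation lemma**. -/
theorem residuation {ι κ : Type} [Fintype ι] [Fintype κ]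
    (B : Divisor ℂ F) (R : ι → Place ℂ F) (S : κ → Place ℂ F)
    (hinj : Function.Injective (Sum.elim R S))
    (hB : LinEq (sumDiv R + sumDiv S) B)
    (hell : finrank ℂ (riemannRochSpace B) = Fintype.card ι + 1)
    (hR : finrank ℂ (riemannRochSpace (B - sumDiv R)) = 1)
    (CR : ∀ i, Chart (R i)) (CS : ∀ k, Chart (S k)) :
    ∃ σ : (ι → ℂ) → (κ → ℂ), ContDiffAt ℂ 2 σ 0 ∧ σ 0 = 0 ∧
      ∀ᶠ z in 𝓝 (0 : ι → ℂ), LinEq (sumDiv (mv CR z) + sumDiv (mv CS (σ z))) B := by
  classical
  obtain ⟨h, hh0, hh⟩ := exists_ord_eq (K := ℂ) (Finset.univ.image (Sum.elim R S))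
    (fun v => -B v)
  set B' : Divisor ℂ F := B + divOf h with hB'
  have hBB' : LinEq B' B := by
    unfold LinEq
    exact mem_principal_iff.2 ⟨h, hh0, by rw [hB']; abel⟩
  have hz : ∀ s, B' (Sum.elim R S s) = 0 := by
    intro s
    rw [hB', Finsupp.add_apply, divOf_apply, hh _ (Finset.mem_image_of_mem _ (Finset.mem_univ s))]
    ring
  obtain ⟨σ, h1, h2, h3⟩ := residuation_aux B' R S hinj (fun i => hz (Sum.inl i))
    (fun k => hz (Sum.inr k)) (LinEq.trans hB (LinEq.symm hBB'))
    (by rw [hB', finrank_L_add_divOf B hh0, hell])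
    (by
      have : B' - sumDiv R = (B - sumDiv R) + divOf h := by rw [hB']; abel
      rw [this, finrank_L_add_divOf _ hh0, hR]) CR CS
  exact ⟨σ, h1, h2, h3.mono fun z hz => LinEq.trans hz hBB'⟩

/-- (C'-SC) semicontinuity: `l(B - moving points) = 1` persists. -/
theorem eventually_finrank_L_sub {ι : Type} [Fintype ι]
    (B : Divisor ℂ F) (R : ι → Place ℂ F) (hinj : Function.Injective R)
    (hell : finrank ℂ (riemannRochSpace B) = Fintype.card ι + 1)
    (hR : finrank ℂ (riemannRochSpace (B - sumDiv R)) = 1) (CR : ∀ i, Chart (R i)) :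
    ∀ᶠ z in 𝓝 (0 : ι → ℂ), finrank ℂ (riemannRochSpace (B - sumDiv (mv CR z))) = 1 := by
  classical
  obtain ⟨h, hh0, hh⟩ := exists_ord_eq (K := ℂ) (Finset.univ.image R) (fun v => -B v)
  set B' : Divisor ℂ F := B + divOf h with hB'
  have hz : ∀ i, B' (R i) = 0 := by
    intro i
    rw [hB', Finsupp.add_apply, divOf_apply, hh _ (Finset.mem_image_of_mem _ (Finset.mem_univ i))]
    ring
  obtain ⟨b, cof, -, -, hev⟩ := exists_section B' R hinj hz
    (by rw [hB', finrank_L_add_divOf B hh0, hell])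
    (by
      have : B' - sumDiv R = (B - sumDiv R) + divOf h := by rw [hB']; abel
      rw [this, finrank_L_add_divOf _ hh0, hR]) CR
  filter_upwards [hev] with z hz
  have : B' - sumDiv (mv CR z) = (B - sumDiv (mv CR z)) + divOf h := by rw [hB']; abel
  rw [← hz.2.2, this, finrank_L_add_divOf _ hh0]

end Fermat.Agent.S27.Alt
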