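import Fermat.Agent.S27.Alt.Resid

/-!
# S27 / alternative core: the chart `cmap` of `Pic0`
-/

set_option autoImplicit false

open AlgebraicCurve WithZero Module Filter Topology

namespace Fermat.Agent.S27.Alt

variable {F : Type*} [Field F] [Algebra ℂ F] [IsFF ℂ F]

/-- the map `z ↦ [P(z) - P]`. -/
noncomputable def cmap {g : ℕ} {P : Fin g → Place ℂ F} (C : ∀ i, Chart (P i)) (z : Fin g → ℂ) :
    Pic0 ℂ F :=
  pc (sumDiv (mv C z) - sumDiv P)

theorem cmap_zero {g : ℕ} {P : Fin g → Place ℂ F} (C : ∀ i, Chart (P i)) : cmap C 0 = 0 := by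
  unfold cmap
  rw [mv_zero, sub_self, pc_zero]

end Fermat.Agent.S27.Alt
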