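import Fermat.Agent.S27.Alt.Two
import Fermat.Agent.S27.Alt.Point

/-!
# S27 / alternative core: small differences of places
-/

set_option autoImplicit false

open AlgebraicCurve WithZero Module Filter Topology

namespace Fermat.Agent.S27.Alt

variable {F : Type*} [Field F] [Algebra ℂ F] [IsFF ℂ F]

/-- (C'-T2) small differences of places lie in the image of the chart. -/
theorem eventually_mem_cmap {g : ℕ} (hg : genusFF ℂ F = g) {P : Fin g → Place ℂ F}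
    (hP : IsNS P) (CP : ∀ i, Chart (P i)) (v : Place ℂ F) (Cv : Chart v)
    (V : Set (Fin g → ℂ)) (hV : V ∈ 𝓝 0) :
    ∀ᶠ z in 𝓝 (0 : ℂ), ∃ x ∈ V,
      cmap CP x = pc (Finsupp.single (Cv.pt z) 1 - Finsupp.single v 1) := by
  obtain ⟨R, hR, hRS⟩ := exists_isNS hg (Set.range P ∪ {v})
    ((Set.finite_range P).union (Set.finite_singleton v))
  obtain ⟨Q, hQ, hQS⟩ := exists_isNS hg (Set.range P ∪ Set.range R)
    ((Set.finite_range P).union (Set.finite_range R))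
  have hC : ∀ w : Place ℂ F, Nonempty (Chart w) := fun w => by
    obtain ⟨t, ht⟩ := exists_unif w
    obtain ⟨C, -⟩ := exists_chart w t ht
    exact ⟨C⟩
  let CR : ∀ i, Chart (R i) := fun i => (hC _).some
  let CQ : ∀ i, Chart (Q i) := fun i => (hC _).some
  obtain ⟨ξ, hξc, hξ0, hξ⟩ := exists_resid_point hg hR CR (v := v)
    (fun i h => hRS i (Or.inr h)) Cv
  obtain ⟨σ1, hσ1c, hσ10, hσ1⟩ := exists_resid_two hg hR hQ
    (fun i j h => hQS j (Or.inr ⟨i, h⟩)) CR CQ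
  obtain ⟨σ2, hσ2c, hσ20, hσ2⟩ := exists_resid_two hg hQ hP
    (fun i j h => hQS i (Or.inl ⟨j, h.symm⟩)) CQ CP
  have t1 : Tendsto ξ (𝓝 0) (𝓝 0) := by
    have := hξc.tendsto
    rwa [hξ0] at this
  have t2 : Tendsto σ1 (𝓝 0) (𝓝 0) := by
    have := hσ1c.continuousAt.tendsto
    rwa [hσ10] at this
  have t3 : Tendsto σ2 (𝓝 0) (𝓝 0) := by
    have := hσ2c.continuousAt.tendsto
    rwa [hσ20] at this
  filter_upwards [hξ, t1.eventually hσ1, (t2.comp t1).eventually hσ2,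
    (t3.comp (t2.comp t1)) hV] with z h1 h2 h3 h4
  exact ⟨σ2 (σ1 (ξ z)), h4, by rw [← h1, h2]; simp only [Function.comp] at h3; rw [h3, neg_neg]⟩

theorem IsNhd.mono {P : Place ℂ F} {N N' : Set (Place ℂ F)} (h : IsNhd P N) (hN : N ⊆ N') :
    IsNhd P N' := by
  obtain ⟨s, δ, hδ, hs, hsub⟩ := h
  exact ⟨s, δ, hδ, hs, hsub.trans hN⟩

/-- (C'-T3) -/
theorem isNhd_cmap {g : ℕ} (hg : genusFF ℂ F = g) {P : Fin g → Place ℂ F}
    (hP : IsNS P) (CP : ∀ i, Chart (P i)) (v : Place ℂ F)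
    (V : Set (Fin g → ℂ)) (hV : V ∈ 𝓝 0) :
    IsNhd v {Q | ∃ x ∈ V, cmap CP x = pc (Finsupp.single Q 1 - Finsupp.single v 1)} := by
  obtain ⟨t, ht⟩ := exists_unif v
  obtain ⟨Cv, -⟩ := exists_chart v t ht
  have h := eventually_mem_cmap hg hP CP v Cv V hV
  refine (Cv.isNhd _ h).mono ?_
  rintro _ ⟨z, hz, rfl⟩
  exact hz

end Fermat.Agent.S27.Alt
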