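import Fermat.Agent.S27.Alt.Setup

/-!
# S27 / alternative core: residuation between non special divisors
-/

set_option autoImplicit false

open AlgebraicCurve WithZero Module Filter Topology

namespace Fermat.Agent.S27.Alt

variable {F : Type*} [Field F] [Algebra ℂ F] [IsFF ℂ F]

omit [IsFF ℂ F] in
theorem sumDiv_sumElim {ι κ : Type*} [Fintype ι] [Fintype κ] (R : ι → Place ℂ F)
    (S : κ → Place ℂ F) : sumDiv (Sum.elim R S) = sumDiv R + sumDiv S := by
  unfold sumDiv
  rw [Fintype.sum_sum_type]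
  rfl

omit [IsFF ℂ F] in
theorem injective_sumElim {ι κ : Type*} {R : ι → Place ℂ F} {S : κ → Place ℂ F}
    (hR : Function.Injective R) (hS : Function.Injective S) (hd : ∀ i j, R i ≠ S j) :
    Function.Injective (Sum.elim R S) :=
  Function.Injective.sumElim hR hS hd

theorem degree_mv_sub {ι : Type} [Fintype ι] {P : ι → Place ℂ F} (C : ∀ i, Chart (P i))
    (z : ι → ℂ) : Divisor.degree (sumDiv (mv C z) - sumDiv P) = 0 := by
  rw [map_sub, degree_sumDiv, degree_sumDiv, sub_self]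

/-- (C'-S1) two disjoint non special divisors: `[P(z) - P] = - [Q(σ z) - Q]`. -/
theorem exists_resid_two {g : ℕ} (hg : genusFF ℂ F = g) {P Q : Fin g → Place ℂ F}
    (hP : IsNS P) (hQ : IsNS Q) (hd : ∀ i j, P i ≠ Q j)
    (CP : ∀ i, Chart (P i)) (CQ : ∀ i, Chart (Q i)) :
    ∃ σ : (Fin g → ℂ) → (Fin g → ℂ), ContDiffAt ℂ 2 σ 0 ∧ σ 0 = 0 ∧
      ∀ᶠ z in 𝓝 (0 : Fin g → ℂ), cmap CP z = - cmap CQ (σ z) := by
  have hell : finrank ℂ (riemannRochSpace (sumDiv P + sumDiv Q)) = Fintype.card (Fin g) + 1 := by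
    have h := finrank_L_of_isNS_le hg hP (D := sumDiv P + sumDiv Q)
      (le_add_of_nonneg_right (NS.sumDiv_nonneg Q))
    rw [map_add, degree_sumDiv, degree_sumDiv, Fintype.card_fin] at h
    rw [Fintype.card_fin]
    omega
  have hR : finrank ℂ (riemannRochSpace (sumDiv P + sumDiv Q - sumDiv P)) = 1 := by
    rw [add_sub_cancel_left]
    exact hQ.l_eq
  obtain ⟨σ, h1, h2, h3⟩ := residuation (sumDiv P + sumDiv Q) P Q
    (injective_sumElim hP.inj hQ.inj hd) (LinEq.refl _) hell hR CP CQ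
  refine ⟨σ, h1, h2, ?_⟩
  filter_upwards [h3] with z hz
  unfold cmap
  rw [← pc_neg (degree_mv_sub CQ _), pc_eq_iff (degree_mv_sub CP _)
    (by rw [map_neg, degree_mv_sub CQ, neg_zero])]
  unfold LinEq at hz ⊢
  convert hz using 1
  abel

/-- (C'-S2) three pairwise disjoint non special divisors. -/
theorem exists_resid_three {g : ℕ} (hg : genusFF ℂ F = g) {P Q R : Fin g → Place ℂ F}
    (hP : IsNS P) (hQ : IsNS Q) (hR : IsNS R) (hPQ : ∀ i j, P i ≠ Q j) (hPR : ∀ i j, P i ≠ R j)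
    (hQR : ∀ i j, Q i ≠ R j)
    (CP : ∀ i, Chart (P i)) (CQ : ∀ i, Chart (Q i)) (CR : ∀ i, Chart (R i)) :
    ∃ σ : (Fin g → ℂ) × (Fin g → ℂ) → (Fin g → ℂ), ContDiffAt ℂ 2 σ (0, 0) ∧ σ (0, 0) = 0 ∧
      ∀ᶠ p in 𝓝 ((0 : Fin g → ℂ), (0 : Fin g → ℂ)),
        cmap CP p.1 + cmap CQ p.2 = - cmap CR (σ p) := by
  set B : Divisor ℂ F := sumDiv (Sum.elim P Q) + sumDiv R with hBdef
  have hell : finrank ℂ (riemannRochSpace B) = Fintype.card (Fin g ⊕ Fin g) + 1 := by
    have h := finrank_L_of_isNS_le hg hR (D := B)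
      (le_add_of_nonneg_left (NS.sumDiv_nonneg _))
    have hdeg : Divisor.degree B = (g : ℤ) + g + g := by
      rw [hBdef, map_add, degree_sumDiv, degree_sumDiv, Fintype.card_sum, Fintype.card_fin]
      push_cast
      ring
    rw [hdeg] at h
    rw [Fintype.card_sum, Fintype.card_fin]
    omega
  have hR1 : finrank ℂ (riemannRochSpace (B - sumDiv (Sum.elim P Q))) = 1 := by
    rw [hBdef, add_sub_cancel_left]
    exact hR.l_eq
  let CC : ∀ i : Fin g ⊕ Fin g, Chart (Sum.elim P Q i) := fun i =>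
    match i with
    | Sum.inl i => CP i
    | Sum.inr i => CQ i
  have hinj : Function.Injective (Sum.elim (Sum.elim P Q) R) := by
    refine injective_sumElim (injective_sumElim hP.inj hQ.inj hPQ) hR.inj ?_
    rintro (i | i) j
    · exact hPR i j
    · exact hQR i j
  obtain ⟨σ, h1, h2, h3⟩ := residuation B (Sum.elim P Q) R hinj (LinEq.refl _) hell hR1 CC CR
  let e : (Fin g → ℂ) × (Fin g → ℂ) → (Fin g ⊕ Fin g → ℂ) := fun p => Sum.elim p.1 p.2
  have he : ContDiff ℂ 2 e := by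
    rw [contDiff_pi]
    rintro (i | i)
    · exact (contDiff_apply ℂ ℂ i).comp contDiff_fst
    · exact (contDiff_apply ℂ ℂ i).comp contDiff_snd
  have he0 : e (0, 0) = 0 := by
    funext i
    rcases i with i | i <;> rfl
  refine ⟨σ ∘ e, ?_, ?_, ?_⟩
  · exact ContDiffAt.comp _ (by rw [he0]; exact h1) he.contDiffAt
  · simp only [Function.comp, he0, h2]
  · have hc : Tendsto e (𝓝 (0, 0)) (𝓝 0) := by
      have := he.continuous.tendsto (0, 0)
      rwa [he0] at this
    filter_upwards [hc.eventually h3] with p hp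
    have hmv : mv CC (e p) = Sum.elim (mv CP p.1) (mv CQ p.2) := by
      funext i
      rcases i with i | i <;> rfl
    rw [hmv, sumDiv_sumElim, hBdef, sumDiv_sumElim] at hp
    unfold cmap
    rw [← pc_neg (degree_mv_sub CR _), ← pc_add (degree_mv_sub CP _) (degree_mv_sub CQ _),
      pc_eq_iff (by rw [map_add, degree_mv_sub CP, degree_mv_sub CQ, add_zero])
        (by rw [map_neg, degree_mv_sub CR, neg_zero])]
    unfold LinEq at hp ⊢
    convert hp using 1
    simp only [Function.comp]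
    abel

end Fermat.Agent.S27.Alt
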